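/-
T4E-V5 (helper7), abstract part: **the residue of a norm in Dedekind form**, no restriction on the
ramification indices or on the residue extensions (wild ramification and purely inseparable
residue extensions allowed).

`R` a discrete valuation ring with residue field `κ`, `S` a Dedekind domain, finite and torsion
free over `R`.  Then for `x : S`

  `N_{S/R}(x) mod 𝔪 = ∏_Q N_{(S/Q)/κ}(x mod Q) ^ e(Q)`   (`t4e_residue_norm`).

Proof: the norm commutes with reduction modulo `𝔪` (`t4vn_norm_quot`), `𝔪 S = (t)` with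
`t = unit * ∏ π_Q ^ e(Q)` (`S` is principal), and the norm of `x` on `S ⧸ (b c)` is the product of
the norms on `S ⧸ (b)` and `S ⧸ (c)` (exact sequence `0 → S/(c) → S/(bc) → S/(b) → 0`,
`t4e_det_exact`, `t4e_norm_quot_mul`).
-/
import Mathlib
import Fermat.Agent.Lib.T4.Inst.NormAbs

set_option autoImplicit false
set_option linter.unusedSectionVars false
set_option linter.style.haveILetI false
set_option linter.overlappingInstances false

namespace Fermat.Agent.T4E

open Function IsDedekindDomain WithZero Fermat.Agent.T3 Fermat.Agent.T4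

/-- **determinants along a short exact sequence** of vector spaces with compatible
endomorphisms -/
theorem t4e_det_exact {κ M₁ M₂ M₃ : Type*} [Field κ] [AddCommGroup M₁] [AddCommGroup M₂]
    [AddCommGroup M₃] [Module κ M₁] [Module κ M₂] [Module κ M₃] [FiniteDimensional κ M₂]
    (f : M₁ →ₗ[κ] M₂) (g : M₂ →ₗ[κ] M₃) (hf : Injective f) (hg : Surjective g)
    (hfg : LinearMap.range f = LinearMap.ker g)
    (φ₁ : M₁ →ₗ[κ] M₁) (φ₂ : M₂ →ₗ[κ] M₂) (φ₃ : M₃ →ₗ[κ] M₃)
    (h₁ : ∀ m, f (φ₁ m) = φ₂ (f m)) (h₃ : ∀ m, g (φ₂ m) = φ₃ (g m)) :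
    LinearMap.det φ₂ = LinearMap.det φ₁ * LinearMap.det φ₃ := by
  set W : Submodule κ M₂ := LinearMap.ker g with hW
  have he : W ≤ W.comap φ₂ := by
    intro m hm
    rw [Submodule.mem_comap, hW, LinearMap.mem_ker, h₃, LinearMap.mem_ker.mp hm, map_zero]
  rw [LinearMap.det_eq_det_mul_det W φ₂ he]
  congr 1
  · -- the restriction to `W` is conjugate to `φ₁`
    let e₁ : M₁ ≃ₗ[κ] W := (LinearEquiv.ofInjective f hf).trans (LinearEquiv.ofEq _ _ hfg)
    have : φ₂.restrict he = (e₁ : M₁ →ₗ[κ] W) ∘ₗ φ₁ ∘ₗ (e₁.symm : W →ₗ[κ] M₁) := by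
      ext w
      obtain ⟨m, rfl⟩ := e₁.surjective w
      simp only [LinearMap.coe_comp, LinearEquiv.coe_coe, comp_apply, LinearEquiv.symm_apply_apply]
      show φ₂ (f m) = f (φ₁ m)
      exact (h₁ m).symm
    rw [this, LinearMap.det_conj]
  · let e₃ : (M₂ ⧸ W) ≃ₗ[κ] M₃ := g.quotKerEquivOfSurjective hg
    have : W.mapQ W φ₂ he = (e₃.symm : M₃ →ₗ[κ] M₂ ⧸ W) ∘ₗ φ₃ ∘ₗ (e₃ : (M₂ ⧸ W) →ₗ[κ] M₃) := by
      apply LinearMap.ext
      intro w
      obtain ⟨m, rfl⟩ := Submodule.Quotient.mk_surjective W w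
      simp only [LinearMap.coe_comp, LinearEquiv.coe_coe, comp_apply]
      rw [LinearEquiv.eq_symm_apply]
      show g (φ₂ m) = φ₃ (g m)
      exact h₃ m
    rw [this]
    exact LinearMap.det_conj φ₃ e₃.symm

section QN

variable {R κ S : Type*} [CommRing R] [Field κ] [Algebra R κ] [CommRing S] [Algebra R S]

variable (R κ) in
/-- the ideal of `S` generated by the kernel of `R → κ` -/
def t4eKer (S : Type*) [CommRing S] [Algebra R S] : Ideal S :=
  (RingHom.ker (algebraMap R κ)).map (algebraMap R S)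

theorem t4eKer_le_iff (J : Ideal S) :
    t4eKer R κ S ≤ J ↔ RingHom.ker (algebraMap R κ) ≤ RingHom.ker (algebraMap R (S ⧸ J)) := by
  rw [t4eKer, Ideal.map_le_iff_le_comap]
  constructor
  · intro h r hr
    rw [RingHom.mem_ker, IsScalarTower.algebraMap_apply R S (S ⧸ J), Ideal.Quotient.algebraMap_eq,
      Ideal.Quotient.eq_zero_iff_mem]
    exact h hr
  · intro h r hr
    have := h hr
    rw [RingHom.mem_ker, IsScalarTower.algebraMap_apply R S (S ⧸ J), Ideal.Quotient.algebraMap_eq,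
      Ideal.Quotient.eq_zero_iff_mem] at this
    exact this

/-- the `κ`-algebra structure on `S ⧸ J` for `J` containing the kernel of `R → κ` -/
@[reducible] noncomputable def t4eQuotAlgebra (hκ : Surjective (algebraMap R κ)) (J : Ideal S)
    (hJ : t4eKer R κ S ≤ J) : Algebra κ (S ⧸ J) :=
  (RingHom.liftOfSurjective (algebraMap R κ) hκ
    ⟨algebraMap R (S ⧸ J), (t4eKer_le_iff J).mp hJ⟩).toAlgebra

theorem t4eQuotAlgebra_isScalarTower (hκ : Surjective (algebraMap R κ)) (J : Ideal S)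
    (hJ : t4eKer R κ S ≤ J) :
    letI := t4eQuotAlgebra hκ J hJ
    IsScalarTower R κ (S ⧸ J) := by
  letI := t4eQuotAlgebra hκ J hJ
  apply IsScalarTower.of_algebraMap_eq
  intro r
  exact (RingHom.liftOfRightInverse_comp_apply (algebraMap R κ) _ _
    ⟨algebraMap R (S ⧸ J), (t4eKer_le_iff J).mp hJ⟩ r).symm

/-- two `κ`-algebra structures compatible with the `R`-algebra structure agree -/
theorem t4e_algebra_ext (hκ : Surjective (algebraMap R κ)) {A : Type*} [CommRing A] [Algebra R A]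
    (i₁ i₂ : Algebra κ A) (h₁ : @IsScalarTower R κ A _ i₁.toSMul _)
    (h₂ : @IsScalarTower R κ A _ i₂.toSMul _) : i₁ = i₂ := by
  apply Algebra.algebra_ext
  intro c
  obtain ⟨r, rfl⟩ := hκ c
  rw [← @IsScalarTower.algebraMap_apply R κ A _ _ _ _ i₁ _ h₁,
    ← @IsScalarTower.algebraMap_apply R κ A _ _ _ _ i₂ _ h₂]

open Classical in
/-- the norm over `κ` of `x` acting on `S ⧸ J` -/
noncomputable def t4eQN (hκ : Surjective (algebraMap R κ)) (x : S) (J : Ideal S) : κ :=
  if hJ : t4eKer R κ S ≤ J then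
    @Algebra.norm κ (S ⧸ J) _ _ (t4eQuotAlgebra hκ J hJ) (Ideal.Quotient.mk J x)
  else 1

theorem t4eKer_le_of_isScalarTower (J : Ideal S) [Algebra κ (S ⧸ J)]
    [IsScalarTower R κ (S ⧸ J)] : t4eKer R κ S ≤ J := by
  rw [t4eKer_le_iff]
  intro r hr
  rw [RingHom.mem_ker] at hr ⊢
  rw [IsScalarTower.algebraMap_apply R κ (S ⧸ J), hr, map_zero]

theorem t4eQN_eq (hκ : Surjective (algebraMap R κ)) (x : S) (J : Ideal S) [i : Algebra κ (S ⧸ J)]
    [h : IsScalarTower R κ (S ⧸ J)] :
    t4eQN hκ x J = Algebra.norm κ (Ideal.Quotient.mk J x) := by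
  have hJ : t4eKer R κ S ≤ J := t4eKer_le_of_isScalarTower J
  rw [t4eQN, dif_pos hJ]
  have := t4e_algebra_ext hκ (t4eQuotAlgebra hκ J hJ) i (t4eQuotAlgebra_isScalarTower hκ J hJ) h
  rw [this]

/-- the residual norm through a surjective homomorphism onto a `κ`-algebra with kernel `J` -/
theorem t4eQN_eq_norm_of_surjective (hκ : Surjective (algebraMap R κ)) (x : S) (J : Ideal S)
    {κ' : Type*} [Field κ'] [Algebra κ κ'] (φ : S →+* κ') (hφ : Surjective φ)
    (hker : RingHom.ker φ = J)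
    (hcomp : ∀ r : R, φ (algebraMap R S r) = algebraMap κ κ' (algebraMap R κ r)) :
    t4eQN hκ x J = Algebra.norm κ (φ x) := by
  have hJ : t4eKer R κ S ≤ J := by
    rw [t4eKer, Ideal.map_le_iff_le_comap]
    intro r hr
    rw [Ideal.mem_comap, ← hker, RingHom.mem_ker, hcomp, RingHom.mem_ker.mp hr, map_zero]
  rw [t4eQN, dif_pos hJ]
  letI := t4eQuotAlgebra hκ J hJ
  let e₂ : (S ⧸ J) ≃+* κ' :=
    (Ideal.quotEquivOfEq hker.symm).trans (RingHom.quotientKerEquivOfSurjective hφ)
  have he : RingHom.comp (algebraMap κ κ') ((RingEquiv.refl κ : κ ≃+* κ) : κ →+* κ)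
      = RingHom.comp (e₂ : (S ⧸ J) →+* κ') (algebraMap κ (S ⧸ J)) := by
    apply RingHom.ext
    intro c
    obtain ⟨r, rfl⟩ := hκ c
    simp only [RingHom.coe_comp, RingHom.coe_coe, comp_apply, RingEquiv.refl_apply]
    have h1 : algebraMap κ (S ⧸ J) (algebraMap R κ r) = algebraMap R (S ⧸ J) r :=
      RingHom.liftOfRightInverse_comp_apply (algebraMap R κ) _ _
        ⟨algebraMap R (S ⧸ J), (t4eKer_le_iff J).mp hJ⟩ r
    rw [h1, ← hcomp]
    rfl
  have h := Algebra.norm_eq_of_equiv_equiv (RingEquiv.refl κ) e₂ he (Ideal.Quotient.mk J x)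
  rw [h]
  rfl

end QN

section Mul

variable {R κ S : Type*} [CommRing R] [Field κ] [Algebra R κ] [CommRing S] [IsDomain S]
  [Algebra R S]

/-- **multiplicativity of the residual norm** on quotients of a domain by principal ideals -/
theorem t4e_norm_quot_mul (hκ : Surjective (algebraMap R κ)) (b c : S) (hb : b ≠ 0)
    [Algebra κ (S ⧸ Ideal.span {b})] [IsScalarTower R κ (S ⧸ Ideal.span {b})]
    [Algebra κ (S ⧸ Ideal.span {c})] [IsScalarTower R κ (S ⧸ Ideal.span {c})]
    [Algebra κ (S ⧸ Ideal.span {b * c})] [IsScalarTower R κ (S ⧸ Ideal.span {b * c})]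
    [FiniteDimensional κ (S ⧸ Ideal.span {b * c})] (x : S) :
    Algebra.norm κ (Ideal.Quotient.mk (Ideal.span {b * c}) x)
      = Algebra.norm κ (Ideal.Quotient.mk (Ideal.span {b}) x)
        * Algebra.norm κ (Ideal.Quotient.mk (Ideal.span {c}) x) := by
  have h1 : Ideal.span {c} ≤ Submodule.comap (LinearMap.mulLeft S b) (Ideal.span {b * c}) := by
    intro s hs
    rw [Submodule.mem_comap, LinearMap.mulLeft_apply]
    obtain ⟨r, rfl⟩ := Ideal.mem_span_singleton'.mp hs
    exact Ideal.mem_span_singleton'.mpr ⟨r, by ring⟩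
  have h2 : Ideal.span {b * c} ≤ Ideal.span {b} := by
    rw [Ideal.span_le, Set.singleton_subset_iff]
    exact Ideal.mem_span_singleton'.mpr ⟨c, by ring⟩
  let fS : (S ⧸ Ideal.span {c}) →ₗ[S] (S ⧸ Ideal.span {b * c}) :=
    Submodule.mapQ (Ideal.span {c}) (Ideal.span {b * c}) (LinearMap.mulLeft S b) h1
  let gS : (S ⧸ Ideal.span {b * c}) →ₗ[S] (S ⧸ Ideal.span {b}) :=
    Submodule.factor h2
  let f : (S ⧸ Ideal.span {c}) →ₗ[κ] (S ⧸ Ideal.span {b * c}) :=
    (fS.restrictScalars R).extendScalarsOfSurjective hκ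
  let g : (S ⧸ Ideal.span {b * c}) →ₗ[κ] (S ⧸ Ideal.span {b}) :=
    (gS.restrictScalars R).extendScalarsOfSurjective hκ
  have hf_mk : ∀ s : S, f (Ideal.Quotient.mk _ s) = Ideal.Quotient.mk _ (b * s) := fun s => rfl
  have hg_mk : ∀ s : S, g (Ideal.Quotient.mk _ s) = Ideal.Quotient.mk _ s := fun s => rfl
  rw [Algebra.norm_apply, Algebra.norm_apply, Algebra.norm_apply]
  refine (t4e_det_exact f g ?_ ?_ ?_ _ _ _ ?_ ?_).trans (mul_comm _ _)
  · rw [injective_iff_map_eq_zero]
    intro m hm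
    obtain ⟨s, rfl⟩ := Ideal.Quotient.mk_surjective m
    rw [hf_mk, Ideal.Quotient.eq_zero_iff_mem] at hm
    obtain ⟨r, hr⟩ := Ideal.mem_span_singleton'.mp hm
    rw [Ideal.Quotient.eq_zero_iff_mem]
    refine Ideal.mem_span_singleton'.mpr ⟨r, ?_⟩
    apply mul_left_cancel₀ hb
    rw [← hr]; ring
  · intro m
    obtain ⟨s, rfl⟩ := Ideal.Quotient.mk_surjective m
    exact ⟨Ideal.Quotient.mk _ s, hg_mk s⟩
  · ext m
    rw [LinearMap.mem_range, LinearMap.mem_ker]
    constructor
    · rintro ⟨m', rfl⟩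
      obtain ⟨s, rfl⟩ := Ideal.Quotient.mk_surjective m'
      rw [hf_mk, hg_mk, Ideal.Quotient.eq_zero_iff_mem]
      exact Ideal.mem_span_singleton'.mpr ⟨s, by ring⟩
    · intro hm
      obtain ⟨s, rfl⟩ := Ideal.Quotient.mk_surjective m
      rw [hg_mk, Ideal.Quotient.eq_zero_iff_mem] at hm
      obtain ⟨r, hr⟩ := Ideal.mem_span_singleton'.mp hm
      refine ⟨Ideal.Quotient.mk _ r, ?_⟩
      rw [hf_mk, ← hr, mul_comm b r]
  · intro m
    obtain ⟨s, rfl⟩ := Ideal.Quotient.mk_surjective m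
    show f (Ideal.Quotient.mk _ x * Ideal.Quotient.mk _ s) = Ideal.Quotient.mk _ x * f (Ideal.Quotient.mk _ s)
    rw [← map_mul, hf_mk, hf_mk, ← map_mul]
    congr 1; ring
  · intro m
    obtain ⟨s, rfl⟩ := Ideal.Quotient.mk_surjective m
    show g (Ideal.Quotient.mk _ x * Ideal.Quotient.mk _ s) = Ideal.Quotient.mk _ x * g (Ideal.Quotient.mk _ s)
    rw [← map_mul, hg_mk, hg_mk, ← map_mul]

variable [Module.Finite R S]

theorem t4eQN_mul (hκ : Surjective (algebraMap R κ)) (x b c : S) (hb : b ≠ 0)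
    (h : t4eKer R κ S ≤ Ideal.span {b * c}) :
    t4eQN hκ x (Ideal.span {b * c}) = t4eQN hκ x (Ideal.span {b}) * t4eQN hκ x (Ideal.span {c}) := by
  have hb' : t4eKer R κ S ≤ Ideal.span {b} :=
    h.trans (Ideal.span_singleton_le_span_singleton.mpr (dvd_mul_right b c))
  have hc' : t4eKer R κ S ≤ Ideal.span {c} :=
    h.trans (Ideal.span_singleton_le_span_singleton.mpr (dvd_mul_left c b))
  letI i₁ := t4eQuotAlgebra hκ _ hb'
  letI i₂ := t4eQuotAlgebra hκ _ hc'
  letI i₃ := t4eQuotAlgebra hκ _ h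
  haveI := t4eQuotAlgebra_isScalarTower hκ _ hb'
  haveI := t4eQuotAlgebra_isScalarTower hκ _ hc'
  haveI := t4eQuotAlgebra_isScalarTower hκ _ h
  haveI : Module.Finite R (S ⧸ Ideal.span {b * c}) := inferInstance
  haveI : FiniteDimensional κ (S ⧸ Ideal.span {b * c}) :=
    Module.Finite.of_restrictScalars_finite R κ _
  rw [t4eQN_eq hκ x (Ideal.span {b * c}), t4eQN_eq hκ x (Ideal.span {b}),
    t4eQN_eq hκ x (Ideal.span {c})]
  exact t4e_norm_quot_mul hκ b c hb x

theorem t4eQN_of_isUnit (hκ : Surjective (algebraMap R κ)) (x : S) {u : S} (hu : IsUnit u) :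
    t4eQN hκ x (Ideal.span {u}) = 1 := by
  rw [t4eQN]
  split_ifs with hJ
  · letI := t4eQuotAlgebra hκ _ hJ
    haveI : Subsingleton (S ⧸ Ideal.span {u}) := by
      rw [Ideal.span_singleton_eq_top.mpr hu]
      exact Ideal.Quotient.subsingleton_iff.mpr rfl
    rw [Algebra.norm_apply]
    exact LinearMap.det_eq_one_of_subsingleton _
  · rfl

variable [IsDedekindDomain S] [IsPrincipalIdealRing S] [Fintype (HeightOneSpectrum S)]

/-- **the residual norm on `S ⧸ (s)`** is the product of the residual norms at the primes, with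
multiplicities -/
theorem t4eQN_span_singleton (hκ : Surjective (algebraMap R κ)) (x s : S) (hs : s ≠ 0)
    (h : t4eKer R κ S ≤ Ideal.span {s}) (m : HeightOneSpectrum S → ℕ)
    (hm : ∀ Q : HeightOneSpectrum S, Q.intValuation s = exp (-(m Q : ℤ))) :
    t4eQN hκ x (Ideal.span {s}) = ∏ Q : HeightOneSpectrum S, t4eQN hκ x Q.asIdeal ^ m Q := by
  classical
  induction s using UniqueFactorizationMonoid.induction_on_prime generalizing m with
  | h₁ => exact absurd rfl hs
  | h₂ u hu =>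
    rw [t4eQN_of_isUnit hκ x hu]
    symm
    apply Finset.prod_eq_one
    intro Q _
    have h1 : Q.intValuation u = 1 := by
      rw [HeightOneSpectrum.intValuation_eq_one_iff]
      intro hmem
      exact Q.isPrime.ne_top (Ideal.eq_top_of_isUnit_mem _ hmem hu)
    have h2 := hm Q
    rw [h1, ← exp_zero, exp_inj] at h2
    have : m Q = 0 := by omega
    rw [this, pow_zero]
  | h₃ a p ha hp ih =>
    have hp0 : p ≠ 0 := hp.ne_zero
    let Q₀ : HeightOneSpectrum S :=
      ⟨Ideal.span {p}, (Ideal.span_singleton_prime hp0).mpr hp, by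
        rw [ne_eq, Ideal.span_singleton_eq_bot]; exact hp0⟩
    have hQ₀ : Q₀.intValuation p = exp (-1 : ℤ) :=
      HeightOneSpectrum.intValuation_singleton _ hp0 rfl
    have hQne : ∀ Q : HeightOneSpectrum S, Q ≠ Q₀ → Q.intValuation p = 1 := by
      intro Q hQ
      rw [HeightOneSpectrum.intValuation_eq_one_iff]
      intro hmem
      apply hQ
      have hle : Q₀.asIdeal ≤ Q.asIdeal := by
        show Ideal.span {p} ≤ Q.asIdeal
        rw [Ideal.span_le, Set.singleton_subset_iff]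
        exact hmem
      exact (HeightOneSpectrum.ext (Q₀.isMaximal.eq_of_le Q.isPrime.ne_top hle)).symm
    have hc' : t4eKer R κ S ≤ Ideal.span {a} :=
      h.trans (Ideal.span_singleton_le_span_singleton.mpr (dvd_mul_left a p))
    -- the exponents of `a`
    have hma : ∀ Q : HeightOneSpectrum S,
        Q.intValuation a = exp (-((m Q - if Q = Q₀ then 1 else 0 : ℕ) : ℤ)) ∧
          (if Q = Q₀ then 1 else 0) ≤ m Q := by
      intro Q
      have h1 := hm Q
      rw [map_mul] at h1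
      have hane : Q.intValuation a ≠ 0 := Q.intValuation_ne_zero a ha
      by_cases hQ : Q = Q₀
      · rw [if_pos hQ]
        rw [hQ] at h1 hane ⊢
        have hle : Q₀.intValuation a ≤ 1 := Q₀.intValuation_le_one a
        rw [hQ₀, ← exp_log hane, ← exp_add, exp_inj] at h1
        rw [← exp_log hane, ← exp_zero, exp_le_exp] at hle
        rw [← exp_log hane, exp_inj]
        constructor
        · omega
        · omega
      · rw [if_neg hQ]
        rw [hQne Q hQ, one_mul] at h1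
        rw [h1]
        simp
    rw [t4eQN_mul hκ x p a hp0 h, ih ha hc' _ (fun Q => (hma Q).1)]
    have hsplit : ∀ Q : HeightOneSpectrum S,
        t4eQN hκ x Q.asIdeal ^ m Q
          = t4eQN hκ x Q.asIdeal ^ (if Q = Q₀ then 1 else 0)
            * t4eQN hκ x Q.asIdeal ^ (m Q - if Q = Q₀ then 1 else 0) := by
      intro Q
      rw [← pow_add, Nat.add_sub_cancel' (hma Q).2]
    simp_rw [hsplit]
    rw [Finset.prod_mul_distrib]
    congr 1
    simp_rw [pow_ite, pow_one, pow_zero]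
    rw [Finset.prod_ite_eq' Finset.univ Q₀, if_pos (Finset.mem_univ _)]

end Mul

section Main

variable {R S : Type*} [CommRing R] [IsDomain R] [IsDiscreteValuationRing R]
  [CommRing S] [IsDedekindDomain S] [Algebra R S] [Module.Finite R S] [Module.IsTorsionFree R S]
  [Fintype (HeightOneSpectrum S)]

/-- **the residue of a norm, general form** (residual norms `t4eQN`): for a discrete valuation ring
`R` with residue field `κ` and a Dedekind domain `S` finite and torsion free over `R`,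
`N_{S/R}(x) ≡ ∏_Q N_{(S/Q)/κ}(x mod Q) ^ e(Q)`. -/
theorem t4e_residue_norm_qn {κ : Type*} [Field κ] [Algebra R κ]
    (hκ : Surjective (algebraMap R κ))
    {t : R} (ht : IsLocalRing.maximalIdeal R = Ideal.span {t}) (e : HeightOneSpectrum S → ℕ)
    (hte : ∀ Q : HeightOneSpectrum S, Q.intValuation (algebraMap R S t) = exp (-(e Q : ℤ)))
    (x : S) :
    algebraMap R κ (Algebra.norm R x)
      = ∏ Q : HeightOneSpectrum S, t4eQN hκ x Q.asIdeal ^ e Q := by
  set 𝔪 := IsLocalRing.maximalIdeal R with h𝔪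
  have hker : RingHom.ker (algebraMap R κ) = 𝔪 :=
    IsLocalRing.eq_maximalIdeal (RingHom.ker_isMaximal_of_surjective _ hκ)
  have ht0 : t ≠ 0 := by
    rintro rfl
    apply IsDiscreteValuationRing.not_a_field R
    rw [← h𝔪, ht]
    exact Ideal.span_singleton_eq_bot.mpr rfl
  have htS : algebraMap R S t ≠ 0 := by
    rw [ne_eq, FaithfulSMul.algebraMap_eq_zero_iff]
    exact ht0
  have h𝔪S : 𝔪.map (algebraMap R S) = Ideal.span {algebraMap R S t} := by
    rw [ht, Ideal.map_span, Set.image_singleton]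
  have hK : t4eKer R κ S = Ideal.span {algebraMap R S t} := by
    rw [t4eKer, hker, h𝔪S]
  -- the right hand side
  have hR : ∏ Q : HeightOneSpectrum S, t4eQN hκ x Q.asIdeal ^ e Q
      = t4eQN hκ x (Ideal.span {algebraMap R S t}) := by
    haveI : IsPrincipalIdealRing S := t3h_isPrincipalIdealRing_of_fintype S
    rw [t4eQN_span_singleton hκ x _ htS hK.le e hte]
  rw [hR, ← h𝔪S]
  -- the left hand side
  letI : Field (R ⧸ 𝔪) := Ideal.Quotient.field 𝔪
  let ι : (R ⧸ 𝔪) ≃+* κ :=
    (Ideal.quotEquivOfEq hker.symm).trans (RingHom.quotientKerEquivOfSurjective hκ)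
  have hι : ∀ r : R, ι (Ideal.Quotient.mk 𝔪 r) = algebraMap R κ r := fun r => rfl
  have hq := t4vn_norm_quot (R := R) (S := S) 𝔪 x
  rw [← hι, ← hq]
  have hJ : t4eKer R κ S ≤ 𝔪.map (algebraMap R S) := by rw [hK, h𝔪S]
  rw [t4eQN, dif_pos hJ]
  letI := t4eQuotAlgebra hκ _ hJ
  apply Algebra.norm_eq_of_ringEquiv ι
  apply Ideal.Quotient.ringHom_ext
  ext r
  simp only [RingHom.coe_comp, RingHom.coe_coe, comp_apply]
  rw [hι]
  exact RingHom.liftOfRightInverse_comp_apply (algebraMap R κ) _ _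
    ⟨algebraMap R (S ⧸ 𝔪.map (algebraMap R S)), (t4eKer_le_iff _).mp hJ⟩ r

/-- **the residue of a norm, general form**, for arbitrary `κ`-algebra structures on the residue
fields `S ⧸ Q` compatible with the `R`-algebra structures -/
theorem t4e_residue_norm {κ : Type*} [Field κ] [Algebra R κ]
    (hκ : Surjective (algebraMap R κ))
    [∀ Q : HeightOneSpectrum S, Algebra κ (S ⧸ Q.asIdeal)]
    [∀ Q : HeightOneSpectrum S, IsScalarTower R κ (S ⧸ Q.asIdeal)]
    {t : R} (ht : IsLocalRing.maximalIdeal R = Ideal.span {t}) (e : HeightOneSpectrum S → ℕ)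
    (hte : ∀ Q : HeightOneSpectrum S, Q.intValuation (algebraMap R S t) = exp (-(e Q : ℤ)))
    (x : S) :
    algebraMap R κ (Algebra.norm R x)
      = ∏ Q : HeightOneSpectrum S, Algebra.norm κ (Ideal.Quotient.mk Q.asIdeal x) ^ e Q := by
  rw [t4e_residue_norm_qn hκ ht e hte x]
  exact Finset.prod_congr rfl fun Q _ => by rw [t4eQN_eq hκ x Q.asIdeal]

end Main

end Fermat.Agent.T4E
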