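/-
T4E-V5 (helper7): **the residue of a norm, valuation-subring form, general `(e, f)`**.

`K ⊆ L` finite (characteristic zero), `R` a discrete valuation subring of `K`, `𝒱 : T4vnFam R ι L`
a complete finite family of discrete valuation subrings of `L` over `R`, with residue maps
`ρ : R → κ`, `ρ' i : V i → κ' i` (surjective, `κ' i` a `κ`-algebra, compatible), and ramification
indices `e i`.  Then for `x` in all `V i`

  `ρ (N_{L/K} x) = ∏ i, N_{κ' i / κ} (ρ' i x) ^ e i`   (`t4e_fam_res_norm`),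

with no hypothesis on the `e i` or on the residue extensions.  Together with
`T4vnFam.val_norm` (`v_R (N y) = ∏ i, v_i(y) ^ f i`) and `T4vnFam.sum_e_mul_f` these are the norm
formulas in Dedekind form.
-/
import Mathlib
import Fermat.Agent.Lib.T4.Inst.NormVS
import Fermat.Agent.Lib.T4E.Norm.Residue

set_option autoImplicit false
set_option linter.unusedSectionVars false
set_option linter.style.haveILetI false

namespace Fermat.Agent.T4E

open Function IsDedekindDomain WithZero Fermat.Agent.T3 Fermat.Agent.T4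

section Family

variable {K L : Type*} [Field K] [Field L] [Algebra K L] [FiniteDimensional K L] [CharZero K]
  {R : ValuationSubring K} [IsDiscreteValuationRing R] {ι : Type*} (𝒱 : T4vnFam R ι L)

attribute [local instance] t4vnS_isDedekindDomain t4vnS_isFractionRing t4vnS_moduleFinite
  t4vnS_isTorsionFree t4vnR_perfectField t4vnS_fintype

/-- the inclusion of the integral closure in a member of the family -/
noncomputable def t4eToV (i : ι) : t4vnS L R →+* ↥(𝒱.V i) :=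
  (algebraMap (t4vnS L R) L).codRestrict (𝒱.V i).toSubring (t4vnS_le (𝒱.V i) (𝒱.le i))

theorem t4e_coe_toV (i : ι) (s : t4vnS L R) : ((t4eToV 𝒱 i s : ↥(𝒱.V i)) : L) = (s : L) := rfl

theorem t4e_centre_eq_comap (i : ι) :
    (𝒱.centre i).asIdeal = Ideal.comap (t4eToV 𝒱 i) (IsLocalRing.maximalIdeal ↥(𝒱.V i)) := rfl

/-- every element of `V i` is congruent to an element of the integral closure -/
theorem t4e_exists_toV_sub_mem (i : ι) (w : ↥(𝒱.V i)) :
    ∃ s : t4vnS L R, t4eToV 𝒱 i s - w ∈ IsLocalRing.maximalIdeal ↥(𝒱.V i) := by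
  set Q := 𝒱.centre i with hQ
  have hw : Q.valuation L (w : L) ≤ 1 := by
    rw [hQ, 𝒱.centre_valuation, t4vnVal_le_one_iff]
    exact w.2
  obtain ⟨n, d, hnd⟩ := Q.exists_primeCompl_mul_eq_of_integer (w : L) hw
  have hd : (d : t4vnS L R) ∉ Q.asIdeal := d.2
  -- invert `d` modulo the maximal ideal `Q`
  haveI : Q.asIdeal.IsMaximal := Q.isMaximal
  obtain ⟨c, hc⟩ := Ideal.Quotient.exists_inv (I := Q.asIdeal)
    (a := Ideal.Quotient.mk Q.asIdeal (d : t4vnS L R))
    (by rwa [ne_eq, Ideal.Quotient.eq_zero_iff_mem])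
  obtain ⟨c, rfl⟩ := Ideal.Quotient.mk_surjective c
  rw [← map_mul, ← map_one (Ideal.Quotient.mk Q.asIdeal), Ideal.Quotient.eq] at hc
  refine ⟨n * c, ?_⟩
  have hmem : t4eToV 𝒱 i ((d : t4vnS L R) * c - 1) ∈ IsLocalRing.maximalIdeal ↥(𝒱.V i) := hc
  have heq : t4eToV 𝒱 i (n * c) - w = w * t4eToV 𝒱 i ((d : t4vnS L R) * c - 1) := by
    apply Subtype.ext
    show (n : L) * (c : L) - (w : L) = (w : L) * (((d : t4vnS L R) : L) * (c : L) - 1)
    have : (w : L) * ((d : t4vnS L R) : L) = (n : L) := hnd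
    rw [← this]
    ring
  rw [heq]
  exact Ideal.mul_mem_left _ _ hmem

variable [Fintype ι]

/-- **residue of a norm, general form**, valuation subring form:
`ρ (N x) = ∏ i, N_{κ' i / κ} (ρ' i x) ^ e i` -/
theorem t4e_fam_res_norm {κ : Type*} [Field κ] {κ' : ι → Type*} [∀ i, Field (κ' i)]
    [∀ i, Algebra κ (κ' i)] (ρ : ↥R →+* κ) (hρ : Surjective ρ)
    (ρ' : ∀ i, ↥(𝒱.V i) →+* κ' i) (hρ' : ∀ i, Surjective (ρ' i))
    (hcomp : ∀ (i : ι) (r : ↥R),
      ρ' i ⟨algebraMap ↥R L r, 𝒱.le i r⟩ = algebraMap κ (κ' i) (ρ r))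
    {π : K} (hπ : t4vnVal R π = exp (-1 : ℤ)) (e : ι → ℕ)
    (he : ∀ i, t4vnVal (𝒱.V i) (algebraMap K L π) = exp (-(e i : ℤ)))
    (x : L) (hx : ∀ i, x ∈ 𝒱.V i) :
    ∃ h : Algebra.norm K x ∈ R,
      ρ ⟨_, h⟩ = ∏ i, Algebra.norm κ (ρ' i ⟨x, hx i⟩) ^ e i := by
  classical
  letI : Algebra ↥R κ := ρ.toAlgebra
  have hκ : Surjective (algebraMap ↥R κ) := hρ
  set x' : t4vnS L R := ⟨x, 𝒱.compl x hx⟩ with hx'
  obtain ⟨hπmem, hπmax⟩ := t4vn_maximalIdeal_eq_span R hπ
  have hte : ∀ Q : HeightOneSpectrum (t4vnS L R),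
      Q.intValuation (algebraMap ↥R (t4vnS L R) ⟨π, hπmem⟩)
        = exp (-((e (𝒱.equiv.symm Q) : ℕ) : ℤ)) := by
    intro Q
    obtain ⟨i, rfl⟩ := 𝒱.equiv.surjective Q
    rw [Equiv.symm_apply_apply, ← HeightOneSpectrum.valuation_of_algebraMap (K := L),
      T4vnFam.equiv_apply, 𝒱.centre_valuation, ← he i]
    rfl
  have key := t4e_residue_norm_qn (R := ↥R) (S := t4vnS L R) hκ hπmax
    (fun Q => e (𝒱.equiv.symm Q)) hte x'
  have hN := t4vn_algebraMap_norm x'
  have hmem : Algebra.norm K x ∈ R := by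
    have : Algebra.norm K x = ((Algebra.norm ↥R x' : ↥R) : K) := hN.symm
    rw [this]
    exact (Algebra.norm ↥R x').2
  refine ⟨hmem, ?_⟩
  have heq : (⟨Algebra.norm K x, hmem⟩ : ↥R) = Algebra.norm ↥R x' := Subtype.ext hN.symm
  rw [heq]
  show algebraMap ↥R κ (Algebra.norm ↥R x') = _
  rw [key]
  -- the residual norms
  have hfac : ∀ i : ι, t4eQN hκ x' (𝒱.centre i).asIdeal
      = Algebra.norm κ (ρ' i ⟨x, hx i⟩) := by
    intro i
    have hsurj : Surjective ((ρ' i).comp (t4eToV 𝒱 i)) := by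
      intro z
      obtain ⟨w, rfl⟩ := hρ' i z
      obtain ⟨s, hs⟩ := t4e_exists_toV_sub_mem 𝒱 i w
      refine ⟨s, ?_⟩
      have hk : RingHom.ker (ρ' i) = IsLocalRing.maximalIdeal ↥(𝒱.V i) :=
        IsLocalRing.eq_maximalIdeal (RingHom.ker_isMaximal_of_surjective _ (hρ' i))
      rw [← hk, RingHom.mem_ker, map_sub, sub_eq_zero] at hs
      exact hs
    have hker : RingHom.ker ((ρ' i).comp (t4eToV 𝒱 i)) = (𝒱.centre i).asIdeal := by
      have hk : RingHom.ker (ρ' i) = IsLocalRing.maximalIdeal ↥(𝒱.V i) :=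
        IsLocalRing.eq_maximalIdeal (RingHom.ker_isMaximal_of_surjective _ (hρ' i))
      rw [t4e_centre_eq_comap, ← hk]
      rfl
    have h := t4eQN_eq_norm_of_surjective hκ x' (𝒱.centre i).asIdeal
      ((ρ' i).comp (t4eToV 𝒱 i)) hsurj hker (fun r => hcomp i r)
    rw [h]
    rfl
  rw [← Fintype.prod_equiv 𝒱.equiv (fun i => Algebra.norm κ (ρ' i ⟨x, hx i⟩) ^ e i)
    (fun Q => t4eQN hκ x' Q.asIdeal ^ e (𝒱.equiv.symm Q))]
  intro i
  rw [Equiv.symm_apply_apply, T4vnFam.equiv_apply, hfac i]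

end Family

end Fermat.Agent.T4E
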