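/-
T4E-V5 (helper7): the norm formulas in the forms consumed by steps A, B, C at level `q ^ e`.

* `t4e_vnVal_eq_exp_ord`: the normalised valuation of a discrete valuation subring through the
  elementary order function `T4niUnif.ord` (helper4).
* `t4e_fam_ord_norm`: `ord_R (N y) = ∑ i, f i * ord_i y` (additive form of `T4vnFam.val_norm`).
* `t4e_fam_f_eq_finrank`: the residue degree `𝒱.f i` is `[κ' i : κ]` for arbitrary residue maps.
* `t4e_fam_res_norm_frob`: **one valuation above, `[L : K] = q` prime, residue extension with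
  `κ' ^ q ⊆ κ`** (covers both the residue-inseparable step `(e, f) = (1, q)` and the totally
  (wildly) ramified step `(e, f) = (q, 1)`): `ρ (N y) = (ρ' y) ^ q`.
-/
import Mathlib
import Fermat.Agent.Lib.T4.New.Ord
import Fermat.Agent.Lib.T4E.Norm.ResVS

set_option autoImplicit false
set_option linter.unusedSectionVars false
set_option linter.style.haveILetI false

namespace Fermat.Agent.T4E

open Function IsDedekindDomain WithZero Fermat.Agent.T3 Fermat.Agent.T4

section Ord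

variable {F : Type*} [Field F] (W : ValuationSubring F) [IsDiscreteValuationRing W] {ϖ : F}
  (h : T4niUnif W.toSubring ϖ)

include h in
theorem t4e_vnVal_unif : t4vnVal W ϖ = exp (-1 : ℤ) := by
  have hmem : ϖ ∈ W := h.mem
  have hmax : IsLocalRing.maximalIdeal ↥W = Ideal.span {(⟨ϖ, hmem⟩ : ↥W)} := by
    apply le_antisymm
    · intro a ha
      rw [Ideal.mem_span_singleton']
      rcases eq_or_ne a 0 with rfl | ha0
      · exact ⟨0, zero_mul _⟩
      have haF : (a : F) ≠ 0 := fun h0 => ha0 (Subtype.ext h0)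
      set f : Fˣ := Units.mk0 (a : F) haF with hf
      have h1 : 0 ≤ h.ord (Additive.ofMul f) := (h.mem_iff_ord_nonneg f).mp a.2
      have h2 : h.ord (Additive.ofMul f) ≠ 0 := by
        intro h0
        have h3 := (h.unit_iff_ord_eq_zero f).mpr h0
        rw [IsLocalRing.mem_maximalIdeal, mem_nonunits_iff] at ha
        apply ha
        rw [isUnit_iff_exists_inv]
        refine ⟨⟨((f⁻¹ : Fˣ) : F), h3.2⟩, ?_⟩
        apply Subtype.ext
        show (a : F) * ((f⁻¹ : Fˣ) : F) = 1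
        rw [Units.val_inv_eq_inv_val, hf, Units.val_mk0, mul_inv_cancel₀ haF]
      obtain ⟨o, ho, e⟩ := (h.exists_eq_zpow_mul_iff f 1).mpr (by omega)
      refine ⟨⟨o, ho⟩, ?_⟩
      apply Subtype.ext
      show o * ϖ = (a : F)
      rw [hf, Units.val_mk0, zpow_one] at e
      rw [e, mul_comm]
    · rw [Ideal.span_le, Set.singleton_subset_iff, SetLike.mem_coe, IsLocalRing.mem_maximalIdeal,
        mem_nonunits_iff]
      intro hu
      apply h.inv_notMem
      obtain ⟨b, hb⟩ := isUnit_iff_exists_inv.mp hu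
      have h1 : ϖ * (b : F) = 1 := by
        have := congrArg Subtype.val hb
        simpa using this
      have : ϖ⁻¹ = (b : F) := by
        rw [eq_comm, ← mul_eq_one_iff_eq_inv₀ h.ne_zero, mul_comm]
        exact h1
      rw [this]
      exact b.2
  have h0 : (⟨ϖ, hmem⟩ : ↥W) ≠ 0 := fun h0 => h.ne_zero (congrArg Subtype.val h0)
  have := HeightOneSpectrum.intValuation_singleton (t3hMax ↥W) h0
    (by rw [t3hMax_asIdeal, hmax])
  rw [← t4vnVal_coe] at this
  exact this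

include h in
/-- the normalised valuation through the elementary order function -/
theorem t4e_vnVal_eq_exp_ord (y : Fˣ) :
    t4vnVal W (y : F) = exp (-(h.ord (Additive.ofMul y))) := by
  obtain ⟨u, hu, hu', e⟩ := h.ord_spec y
  have hu0 : u ≠ 0 := by
    rintro rfl
    rw [mul_zero] at e
    exact y.ne_zero e
  have h1 : t4vnVal W u ≤ 1 := (t4vnVal_le_one_iff W u).mpr hu
  have h2 : t4vnVal W u⁻¹ ≤ 1 := (t4vnVal_le_one_iff W u⁻¹).mpr hu'
  have h3 : t4vnVal W u = 1 := by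
    apply le_antisymm h1
    rw [map_inv₀] at h2
    have hne : t4vnVal W u ≠ 0 := (Valuation.ne_zero_iff _).mpr hu0
    exact (inv_le_one₀ (zero_lt_iff.mpr hne)).mp h2
  rw [e, map_mul, map_zpow₀, h3, mul_one, t4e_vnVal_unif W h, ← exp_zsmul]
  congr 1
  simp

end Ord

/-- products of exponentials in `ℤᵐ⁰` -/
theorem t4e_prod_exp {ι : Type*} (s : Finset ι) (a : ι → ℤ) :
    ∏ i ∈ s, (exp (a i) : ℤᵐ⁰) = exp (∑ i ∈ s, a i) := by
  classical
  induction s using Finset.induction_on with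
  | empty => simp
  | insert i s hi ih => rw [Finset.prod_insert hi, Finset.sum_insert hi, ih, ← exp_add]

section FamOrd

variable {K L : Type*} [Field K] [Field L] [Algebra K L] [FiniteDimensional K L] [CharZero K]
  {R : ValuationSubring K} [IsDiscreteValuationRing R] {ι : Type*} (𝒱 : T4vnFam R ι L)
  [Fintype ι]

/-- **order of a norm**, additive form: `ord_R (N y) = ∑ i, f i * ord_i y` -/
theorem t4e_fam_ord_norm {ϖ₁ : K} (h₁ : T4niUnif R.toSubring ϖ₁) {ϖ : ι → L}
    (h : ∀ i, T4niUnif (𝒱.V i).toSubring (ϖ i)) (y : Lˣ) :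
    h₁.ord (Additive.ofMul (Units.map (Algebra.norm K : L →* K) y))
      = ∑ i, (𝒱.f i : ℤ) * (h i).ord (Additive.ofMul y) := by
  have hv := 𝒱.val_norm (y : L) y.ne_zero
  rw [show Algebra.norm K (y : L) = ((Units.map (Algebra.norm K : L →* K) y : Kˣ) : K) from rfl,
    t4e_vnVal_eq_exp_ord R h₁] at hv
  simp_rw [t4e_vnVal_eq_exp_ord (𝒱.V _) (h _), ← exp_nsmul] at hv
  rw [t4e_prod_exp] at hv
  have := exp_injective hv
  simp only [nsmul_eq_mul, mul_neg, Finset.sum_neg_distrib, neg_inj] at this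
  exact this

/-- **order of a norm, all residue degrees one** (`∑ e = n`): `ord_R (N y) = ∑ i, ord_i y` -/
theorem t4e_fam_ord_norm_split {ϖ₁ : K} (h₁ : T4niUnif R.toSubring ϖ₁) {ϖ : ι → L}
    (h : ∀ i, T4niUnif (𝒱.V i).toSubring (ϖ i)) {π : K} (hπ : t4vnVal R π = exp (-1 : ℤ))
    (e : ι → ℕ) (he : ∀ i, t4vnVal (𝒱.V i) (algebraMap K L π) = exp (-(e i : ℤ)))
    (hsum : ∑ i, e i = Module.finrank K L) (y : Lˣ) :
    h₁.ord (Additive.ofMul (Units.map (Algebra.norm K : L →* K) y))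
      = ∑ i, (h i).ord (Additive.ofMul y) := by
  rw [t4e_fam_ord_norm 𝒱 h₁ h y]
  refine Finset.sum_congr rfl fun i _ => ?_
  rw [𝒱.f_eq_one_of_sum hπ e he hsum i, Nat.cast_one, one_mul]

/-- **order of a norm, one valuation above**: `ord_R (N y) = f * ord y` -/
theorem t4e_fam_ord_norm_unique [Unique ι] {ϖ₁ : K} (h₁ : T4niUnif R.toSubring ϖ₁) {ϖ : ι → L}
    (h : ∀ i, T4niUnif (𝒱.V i).toSubring (ϖ i)) (y : Lˣ) :
    h₁.ord (Additive.ofMul (Units.map (Algebra.norm K : L →* K) y))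
      = (𝒱.f default : ℤ) * (h default).ord (Additive.ofMul y) := by
  rw [t4e_fam_ord_norm 𝒱 h₁ h y, Fintype.sum_unique]

end FamOrd

section FamRes

variable {K L : Type*} [Field K] [Field L] [Algebra K L] [FiniteDimensional K L] [CharZero K]
  {R : ValuationSubring K} [IsDiscreteValuationRing R] {ι : Type*} (𝒱 : T4vnFam R ι L)

attribute [local instance] t4vnS_isDedekindDomain t4vnS_isFractionRing t4vnS_moduleFinite
  t4vnS_isTorsionFree t4vnR_perfectField t4vnS_fintype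

variable {κ : Type*} [Field κ] {κ' : ι → Type*} [∀ i, Field (κ' i)]
  (ρ' : ∀ i, ↥(𝒱.V i) →+* κ' i) (hρ' : ∀ i, Surjective (ρ' i))

include hρ' in
theorem t4e_toV_comp_surjective (i : ι) : Surjective ((ρ' i).comp (t4eToV 𝒱 i)) := by
  intro z
  obtain ⟨w, rfl⟩ := hρ' i z
  obtain ⟨s, hs⟩ := t4e_exists_toV_sub_mem 𝒱 i w
  refine ⟨s, ?_⟩
  have hk : RingHom.ker (ρ' i) = IsLocalRing.maximalIdeal ↥(𝒱.V i) :=
    IsLocalRing.eq_maximalIdeal (RingHom.ker_isMaximal_of_surjective _ (hρ' i))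
  rw [← hk, RingHom.mem_ker, map_sub, sub_eq_zero] at hs
  exact hs

include hρ' in
theorem t4e_toV_comp_ker (i : ι) :
    RingHom.ker ((ρ' i).comp (t4eToV 𝒱 i)) = (𝒱.centre i).asIdeal := by
  have hk : RingHom.ker (ρ' i) = IsLocalRing.maximalIdeal ↥(𝒱.V i) :=
    IsLocalRing.eq_maximalIdeal (RingHom.ker_isMaximal_of_surjective _ (hρ' i))
  rw [t4e_centre_eq_comap, ← hk]
  rfl

variable [∀ i, Algebra κ (κ' i)] (ρ : ↥R →+* κ) (hρ : Surjective ρ)
  (hcomp : ∀ (i : ι) (r : ↥R),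
    ρ' i ⟨algebraMap ↥R L r, 𝒱.le i r⟩ = algebraMap κ (κ' i) (ρ r))

include hρ hρ' hcomp in
/-- **the residue degree is the degree of the residue extension**, for arbitrary residue maps -/
theorem t4e_fam_f_eq_finrank (i : ι) : 𝒱.f i = Module.finrank κ (κ' i) := by
  classical
  have hkerρ : RingHom.ker ρ = IsLocalRing.maximalIdeal ↥R :=
    IsLocalRing.eq_maximalIdeal (RingHom.ker_isMaximal_of_surjective ρ hρ)
  set Q := 𝒱.centre i with hQ
  haveI hlo : Q.asIdeal.LiesOver (IsLocalRing.maximalIdeal ↥R) := t3h_liesOver_maximalIdeal Q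
  haveI hQmax : Q.asIdeal.IsMaximal := Q.isMaximal
  rw [T4vnFam.f, Ideal.inertiaDeg_eq_of_isMaximal (IsLocalRing.maximalIdeal ↥R) Q.asIdeal]
  set ρS : t4vnS L R →+* κ' i := (ρ' i).comp (t4eToV 𝒱 i) with hρS
  have hρSsurj : Surjective ρS := t4e_toV_comp_surjective 𝒱 ρ' hρ' i
  have hkerS : RingHom.ker ρS = Q.asIdeal := t4e_toV_comp_ker 𝒱 ρ' hρ' i
  let e₁ : (↥R ⧸ IsLocalRing.maximalIdeal ↥R) ≃+* κ :=
    (Ideal.quotEquivOfEq hkerρ.symm).trans (RingHom.quotientKerEquivOfSurjective hρ)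
  let e₂ : (t4vnS L R ⧸ Q.asIdeal) ≃+* κ' i :=
    (Ideal.quotEquivOfEq hkerS.symm).trans (RingHom.quotientKerEquivOfSurjective hρSsurj)
  apply Algebra.finrank_eq_of_equiv_equiv e₁ e₂
  apply Ideal.Quotient.ringHom_ext
  ext r
  simp only [RingHom.coe_comp, Function.comp_apply, RingEquiv.toRingHom_eq_coe, RingHom.coe_coe]
  rw [Ideal.Quotient.algebraMap_mk_of_liesOver]
  show algebraMap κ (κ' i) (ρ r) = ρS (algebraMap ↥R (t4vnS L R) r)
  rw [← hcomp i r]
  rfl

omit [∀ i, Algebra κ (κ' i)] in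
/-- the ramification index exists as a natural number -/
theorem t4e_fam_exists_e {π : K} (hπ : t4vnVal R π = exp (-1 : ℤ)) (i : ι) :
    ∃ n : ℕ, t4vnVal (𝒱.V i) (algebraMap K L π) = exp (-(n : ℤ)) := by
  have hπ0 : π ≠ 0 := by
    rintro rfl
    rw [map_zero] at hπ
    exact (exp_ne_zero).symm hπ
  have hne : t4vnVal (𝒱.V i) (algebraMap K L π) ≠ 0 :=
    (Valuation.ne_zero_iff _).mpr (by rwa [ne_eq, map_eq_zero])
  obtain ⟨hmem, -⟩ := t4vn_maximalIdeal_eq_span R hπ
  have hle : t4vnVal (𝒱.V i) (algebraMap K L π) ≤ 1 :=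
    (t4vnVal_le_one_iff _ _).mpr (𝒱.le i ⟨π, hmem⟩)
  have hv : t4vnVal (𝒱.V i) (algebraMap K L π)
      = exp (log (t4vnVal (𝒱.V i) (algebraMap K L π))) := (exp_log hne).symm
  set a := log (t4vnVal (𝒱.V i) (algebraMap K L π)) with ha
  rw [hv, ← exp_zero, exp_le_exp] at hle
  refine ⟨(-a).toNat, ?_⟩
  rw [hv, exp_inj]
  omega

include hρ hρ' hcomp in
/-- **residue of a norm, one valuation above, `[L : K] = q` prime, `κ' ^ q ⊆ κ`**:
`ρ (N x) = (ρ' x) ^ q`.  Covers the residue-inseparable step (`e = 1`, `f = q`) and the totally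
ramified, possibly wild, step (`e = q`, `f = 1`). -/
theorem t4e_fam_res_norm_frob [Unique ι] {π : K} (hπ : t4vnVal R π = exp (-1 : ℤ)) {q : ℕ}
    (hq : q.Prime) [CharP κ q] (hdeg : Module.finrank K L = q)
    (hins : ∀ z : κ' default, ∃ c : κ, z ^ q = algebraMap κ (κ' default) c)
    (x : L) (hx : x ∈ 𝒱.V default) :
    ∃ h : Algebra.norm K x ∈ R,
      algebraMap κ (κ' default) (ρ ⟨_, h⟩) = ρ' default ⟨x, hx⟩ ^ q := by
  classical
  haveI : Fact q.Prime := ⟨hq⟩
  choose e he using t4e_fam_exists_e 𝒱 hπ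
  have hx' : ∀ i, x ∈ 𝒱.V i := fun i => by rw [Unique.eq_default i]; exact hx
  obtain ⟨h, hN⟩ := t4e_fam_res_norm 𝒱 ρ hρ ρ' hρ' hcomp hπ e he x hx'
  refine ⟨h, ?_⟩
  rw [hN, Fintype.prod_unique]
  have hef : e default * Module.finrank κ (κ' default) = q := by
    have h1 := 𝒱.sum_e_mul_f hπ e he
    rw [Fintype.sum_unique, hdeg, t4e_fam_f_eq_finrank 𝒱 ρ' hρ' ρ hρ hcomp default] at h1
    exact h1
  set z := ρ' default ⟨x, hx' default⟩ with hz
  rcases (Nat.dvd_prime hq).mp ⟨_, hef.symm⟩ with h1 | h1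
  · -- `e = 1`, `f = q`
    rw [h1, one_mul] at hef
    obtain ⟨c, hc⟩ := hins z
    rw [h1, pow_one, t4vn_norm_of_pow_eq q hef z c hc, hc]
  · -- `e = q`, `f = 1`
    rw [h1] at hef
    have hf1 : Module.finrank κ (κ' default) = 1 := by
      have := hq.pos
      exact Nat.eq_of_mul_eq_mul_left this (by rw [hef, mul_one])
    have hbot : (⊥ : Subalgebra κ (κ' default)) = ⊤ := Subalgebra.bot_eq_top_of_finrank_eq_one hf1
    have hzmem : z ∈ (⊥ : Subalgebra κ (κ' default)) := by rw [hbot]; exact Algebra.mem_top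
    obtain ⟨c, hc⟩ := Algebra.mem_bot.mp hzmem
    rw [h1, ← hc, Algebra.norm_algebraMap, hf1, pow_one, map_pow]

end FamRes

end Fermat.Agent.T4E
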