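/-
T4E (helper1), package P5 NORM: **the order formulas `ordA`, `ordA_split` of helper4's `T4eiNormA`**
(`New/NormSym.lean`) for two consecutive linked layers `lo` (level `i ≥ 1`), `up` (level `i + 1`).

* `t4eoa_ord_q` : `ord_w q = t4eMult q j w` on every layer;
* `t4eoa_ram` : `α (ϖ^lo_{w'}) = (ϖ^up_w) ^ n · unit` with `μ^up_w = n · μ^lo_{w'}`, `w' = min w i`;
* `t4eoa_mult_nonsplit`, `t4eoa_mult_top`, `t4eoa_mult_self` : the arithmetic of the multiplicities;
* the `α`-fibre families over `lo.V w` (`w < i`: `{up.V w}`; `w = i`: `{up.V i, up.V (i + 1)}`) by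
  exhaustion (`up.complete`, `hl.comap_α`, `lo.inj`; helper7's `t4eFamOfForall`);
* **`t4eoa_ordA`**, **`t4eoa_ordA_split`**.
-/
import Fermat.Agent.Lib.T4E.Tower.Count
import Fermat.Agent.Lib.T4E.Tower.Emb
import Fermat.Agent.Lib.T4E.New.NormSym

set_option autoImplicit false
set_option linter.unusedSectionVars false
set_option linter.unusedVariables false
set_option linter.style.haveILetI false

open HahnSeries ModularCurve Fermat.Agent.T1 Fermat.Agent.T2 Fermat.Agent.T3 Fermat.Agent.T4E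
  WithZero

noncomputable section

namespace Fermat.Agent.T4

/-! ### The arithmetic of the multiplicities -/

section Mult

variable {q : ℕ}

theorem t4eoa_mult_pos (hq : q.Prime) (i w : ℕ) : 0 < t4eMult q i w := by
  unfold t4eMult
  exact Nat.totient_pos.mpr (pow_pos hq.pos _)

/-- non-split labels `w < i`: `μ^up_w · f_α(w) = q · μ^lo_w` -/
theorem t4eoa_mult_nonsplit (hq : q.Prime) {i w : ℕ} (hw : w + 1 ≤ i) :
    t4eMult q (i + 1) w * t4eFa q (i + 1) w = q * t4eMult q i w := by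
  unfold t4eMult t4eFa
  rcases le_or_gt (2 * w) i with h | h
  · have h1 : min w (i + 1 - w) = w := by omega
    have h2 : min w (i - w) = w := by omega
    rw [h1, h2, if_pos (by omega), mul_comm]
  · obtain ⟨b, hb⟩ : ∃ b, i - w = b + 1 := ⟨i - w - 1, by omega⟩
    have h1 : min w (i + 1 - w) = b + 1 + 1 := by omega
    have h2 : min w (i - w) = b + 1 := by omega
    rw [h1, h2, if_neg (by omega), mul_one, Nat.totient_prime_pow_succ hq,
      Nat.totient_prime_pow_succ hq, pow_succ]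
    ring

theorem t4eoa_mult_top (i : ℕ) : t4eMult q i i = 1 := by
  unfold t4eMult
  rw [Nat.sub_self, Nat.min_zero, pow_zero, Nat.totient_one]

theorem t4eoa_mult_self (hq : q.Prime) {i : ℕ} (hi : 1 ≤ i) : t4eMult q (i + 1) i = q - 1 := by
  unfold t4eMult
  have h1 : min i (i + 1 - i) = 1 := by omega
  rw [h1, pow_one, Nat.totient_prime hq]

end Mult

section OrdA

variable {L : Type} [Field L] [Algebra ℚ L] {O : ValuationSubring L} {k : Type*} [Field k]
  {π : ↥O →+* k} [IsDiscreteValuationRing ↥O] {hπ : Function.Surjective π}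
  {N'' q : ℕ} [NeZero N''] [NeZero q]

theorem t4eoa_charZero (N : ℕ) [NeZero N] : CharZero ↥(TaF L N) := by
  haveI : CharZero L := algebraRat.charZero L
  exact charZero_of_injective_algebraMap (algebraMap L ↥(TaF L N)).injective

theorem t4eoa_q_ne_zero (N : ℕ) [NeZero N] : ((q : ℕ) : ↥(TaF L N)) ≠ 0 := by
  haveI := t4eoa_charZero (L := L) N
  exact Nat.cast_ne_zero.mpr (NeZero.ne q)

/-- the constant `q` as a unit of `F_j` -/
def t4eoaQ (L : Type) [Field L] [Algebra ℚ L] (N'' q : ℕ) [NeZero N''] [NeZero q] (j : ℕ) :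
    (↥(TaF L (t4eLev N'' q j)))ˣ :=
  Units.mk0 ((q : ℕ) : ↥(TaF L (t4eLev N'' q j))) (t4eoa_q_ne_zero _)

/-- **`ord_w q = μ_w`** -/
theorem t4eoa_ord_q {j : ℕ} (Y : T4eLayer O π hπ N'' q j) {w : ℕ} (hw : w ≤ j) :
    (t4ei_unif Y hw).ord (Additive.ofMul (t4eoaQ L N'' q j)) = (t4eMult q j w : ℤ) := by
  obtain ⟨u, hu, e⟩ := Y.q_eq w hw
  have hu0 : u ≠ 0 := by
    rintro rfl
    rw [mul_zero] at e
    exact t4eoa_q_ne_zero _ e
  obtain ⟨h1, h2⟩ := (t4ei_val_eq_one_iff (Y.V w) hu0).mp hu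
  refine (t4ei_unif Y hw).ord_eq (u := u) h1 h2 ?_
  show ((q : ℕ) : ↥(TaF L (t4eLev N'' q j))) = _
  rw [zpow_natCast]
  exact e

variable {i : ℕ} {lo : T4eLayer O π hπ N'' q i} {up : T4eLayer O π hπ N'' q (i + 1)}

/-- `α` maps `lo.V (min w i)` into `up.V w` -/
theorem t4eoa_alpha_mem (hl : T4eLink lo up) {w : ℕ} (hw : w ≤ i + 1)
    (a : ↥(TaF L (t4eLev N'' q i))) (ha : a ∈ lo.V (min w i)) :
    (heckeAlphaBar L (t4eLev N'' q i) q).toRingHom a ∈ up.V w := by
  rw [← hl.comap_α w hw, ValuationSubring.mem_comap] at ha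
  exact ha

/-- **the ramification of `up.V w` over `lo.V (min w i)`**: `α (ϖ^lo) = (ϖ^up) ^ n · unit` with
`μ^up_w = n · μ^lo_{min w i}` -/
theorem t4eoa_ram (hl : T4eLink lo up) {w : ℕ} (hw : w ≤ i + 1) :
    ∃ (n : ℤ) (u : ↥(TaF L (t4eLev N'' q (i + 1)))), u ∈ up.V w ∧ u⁻¹ ∈ up.V w ∧
      (heckeAlphaBar L (t4eLev N'' q i) q).toRingHom (lo.ϖ (min w i)) = up.ϖ w ^ n * u ∧
      (t4eMult q (i + 1) w : ℤ) = n * (t4eMult q i (min w i) : ℤ) := by
  have hw' : min w i ≤ i := Nat.min_le_right w i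
  set hlo := t4ei_unif lo hw' with hlo_def
  set hup := t4ei_unif up hw with hup_def
  set φ : ↥(TaF L (t4eLev N'' q i)) →+* ↥(TaF L (t4eLev N'' q (i + 1))) :=
    (heckeAlphaBar L (t4eLev N'' q i) q).toRingHom with hφ
  obtain ⟨u, hu, hu', e⟩ := hup.ord_spec (Units.map (φ : _ →* _) hlo.unif)
  have e' : φ (lo.ϖ (min w i)) = up.ϖ w ^
      hup.ord (Additive.ofMul (Units.map (φ : _ →* _) hlo.unif)) * u := e
  refine ⟨_, u, hu, hu', e', ?_⟩
  have h1 := T4niUnif.ord_map hlo hup φ (fun a ha => t4eoa_alpha_mem hl hw a ha) hu hu' e'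
    (t4eoaQ L N'' q i)
  have h2 : Units.map (φ : _ →* _) (t4eoaQ L N'' q i) = t4eoaQ L N'' q (i + 1) := by
    apply Units.ext
    show φ ((q : ℕ) : ↥(TaF L (t4eLev N'' q i))) = ((q : ℕ) : ↥(TaF L (t4eLev N'' q (i + 1))))
    exact map_natCast φ q
  rw [h2, t4eoa_ord_q up hw, t4eoa_ord_q lo hw'] at h1
  exact h1

/-! ### The `α`-fibres -/

/-- the algebra structure `α` on `F_{i+1}` over `F_i` -/
@[reducible] def t4eoaAlg (L : Type) [Field L] [Algebra ℚ L] (N'' q : ℕ) [NeZero N''] [NeZero q]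
    (i : ℕ) : Algebra ↥(TaF L (t4eLev N'' q i)) ↥(TaF L (t4eLev N'' q (i + 1))) :=
  t2iAlgebra L (t4eLev N'' q i) q

theorem t4eoa_finite (hl : T4eLink lo up) (hi : 1 ≤ i) :
    letI := t4eoaAlg L N'' q i
    FiniteDimensional ↥(TaF L (t4eLev N'' q i)) ↥(TaF L (t4eLev N'' q (i + 1))) := by
  letI := t4eoaAlg L N'' q i
  apply Module.finite_of_finrank_pos
  exact lt_of_lt_of_eq (Nat.pos_of_ne_zero (NeZero.ne q)) (hl.deg hi).symm

theorem t4eoa_finrank (hl : T4eLink lo up) (hi : 1 ≤ i) :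
    letI := t4eoaAlg L N'' q i
    Module.finrank ↥(TaF L (t4eLev N'' q i)) ↥(TaF L (t4eLev N'' q (i + 1))) = q :=
  hl.deg hi

/-- **exhaustion of the `α`-fibres**: a valuation ring of `F_{i+1}` over `lo.V w'` is `up.V w` with
`min w i = w'` -/
theorem t4eoa_exhaust (hl : T4eLink lo up) (W : ValuationSubring ↥(TaF L (t4eLev N'' q (i + 1))))
    {w' : ℕ} (hw' : w' ≤ i)
    (hW : W.comap (heckeAlphaBar L (t4eLev N'' q i) q).toRingHom = lo.V w') :
    ∃ w, w ≤ i + 1 ∧ W = up.V w ∧ min w i = w' := by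
  have h1 : W.comap (t4eDeg L N'' q (i + 1) 0).toRingHom = taOv O π hπ N'' := by
    rw [← lo.lies_over w' hw' 0 (Nat.zero_le i), ← hW]
    ext f
    rw [ValuationSubring.mem_comap, ValuationSubring.mem_comap, ValuationSubring.mem_comap]
    show t4eDeg L N'' q (i + 1) 0 f ∈ W ↔
      heckeAlphaBar L (t4eLev N'' q i) q (t4eDeg L N'' q i 0 f) ∈ W
    rw [t4e_alpha_deg L N'' q (Nat.zero_le i) f]
    exact Iff.rfl
  obtain ⟨w, hw, rfl⟩ := up.complete W h1
  refine ⟨w, hw, rfl, ?_⟩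
  rw [hl.comap_α w hw] at hW
  exact lo.inj _ (Nat.min_le_right w i) _ hw' hW

/-- **`ordA`**: `ord^lo_w (N_α y) = f_α(w) · ord^up_w y` for `w < i` -/
theorem t4eoa_ordA (hq : q.Prime) (hl : T4eLink lo up) (hi : 1 ≤ i) {w : ℕ} (hw : w + 1 ≤ i)
    (y : (↥(TaF L (t4eLev N'' q (i + 1))))ˣ) :
    t4eiOrd lo w (Additive.ofMul (Units.map (t4eiNA L (t4eLev N'' q i) q) y))
      = (t4eFa q (i + 1) w : ℤ) * t4eiOrd up w (Additive.ofMul y) := by
  letI := t4eoaAlg L N'' q i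
  haveI := t4eoa_finite hl hi
  haveI := t4eoa_charZero (L := L) (t4eLev N'' q i)
  have hwi : w ≤ i := by omega
  have hwu : w ≤ i + 1 := by omega
  have emin : min w i = w := by omega
  haveI := lo.dvr w hwi
  have hcomap : (up.V w).comap (algebraMap ↥(TaF L (t4eLev N'' q i))
      ↥(TaF L (t4eLev N'' q (i + 1)))) = lo.V w := by
    have := hl.comap_α w hwu
    rw [emin] at this
    exact this
  -- the fibre family `{up.V w}`
  let 𝒱 : T4vnFam (lo.V w) Unit ↥(TaF L (t4eLev N'' q (i + 1))) :=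
    t4eFamOfForall (R := lo.V w) (fun _ : Unit => up.V w) (fun _ => up.dvr w hwu)
      (fun a b _ => Subsingleton.elim a b)
      (fun _ r => t4ek_mem_of_comap hcomap r.2)
      (fun W hW => by
        obtain ⟨w₁, hw₁, e, hmin⟩ := t4eoa_exhaust hl W hwi hW
        have : w₁ = w := by omega
        exact ⟨(), by rw [e, this]⟩)
  have h₁ := t4ei_unif lo hwi
  have hu := t4ei_unif up hwu
  have key := t4e_fam_ord_norm_unique 𝒱 h₁ (ϖ := fun _ => up.ϖ w) (fun _ => hu) y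
  -- the residue degree
  obtain ⟨n, u, hu1, hu2, eram, hmul⟩ := t4eoa_ram hl hwu
  have hmul' : (t4eMult q (i + 1) w : ℤ) = n * (t4eMult q i w : ℤ) := by
    rw [emin] at hmul
    exact hmul
  have hμ : (0 : ℤ) < (t4eMult q i w : ℤ) := by exact_mod_cast t4eoa_mult_pos hq i w
  have hnF : n * (t4eFa q (i + 1) w : ℤ) = (q : ℤ) := by
    have h := t4eoa_mult_nonsplit hq hw
    have h' : (t4eMult q (i + 1) w : ℤ) * (t4eFa q (i + 1) w : ℤ) = (q : ℤ) * (t4eMult q i w : ℤ) := by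
      exact_mod_cast h
    rw [hmul'] at h'
    have h'' : (t4eMult q i w : ℤ) * (n * (t4eFa q (i + 1) w : ℤ)) = (t4eMult q i w : ℤ) * (q : ℤ) := by
      linarith [h']
    exact mul_left_cancel₀ hμ.ne' h''
  have hn0 : 0 < n := by
    have hq0 : (0 : ℤ) < (q : ℤ) := by exact_mod_cast hq.pos
    have hF0 : (0 : ℤ) ≤ (t4eFa q (i + 1) w : ℤ) := Int.natCast_nonneg _
    by_contra hcon
    have : n ≤ 0 := not_lt.mp hcon
    nlinarith
  obtain ⟨E, rfl⟩ : ∃ E : ℕ, n = (E : ℤ) := ⟨n.toNat, (Int.toNat_of_nonneg hn0.le).symm⟩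
  have hπ : t4vnVal (lo.V w) (lo.ϖ w) = exp (-1 : ℤ) := t4e_vnVal_unif (lo.V w) h₁
  haveI := up.dvr w hwu
  have he : ∀ j : Unit, t4vnVal (𝒱.V j) (algebraMap ↥(TaF L (t4eLev N'' q i))
      ↥(TaF L (t4eLev N'' q (i + 1))) (lo.ϖ w)) = exp (-(((fun _ : Unit => E) j : ℕ) : ℤ)) := by
    intro j
    have h0 : u ≠ 0 := by
      rintro rfl
      rw [inv_zero] at hu2
      have hϖ0 := lo.ϖ_ne_zero hwi
      rw [mul_zero] at eram
      rw [emin] at eram
      exact hϖ0 ((map_eq_zero _).mp eram)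
    refine t4ek_vnVal_of_ram (up.V w) hu ⟨u, (t4ei_val_eq_one_iff (up.V w) h0).mpr ⟨hu1, hu2⟩, ?_⟩
    rw [emin, zpow_natCast] at eram
    exact eram
  have hsum := 𝒱.sum_e_mul_f hπ (fun _ => E) he
  rw [Fintype.sum_unique, t4eoa_finrank hl hi] at hsum
  have hf : 𝒱.f default = t4eFa q (i + 1) w := by
    have h3 : (E : ℤ) * (𝒱.f default : ℤ) = (E : ℤ) * (t4eFa q (i + 1) w : ℤ) := by
      rw [hnF]
      exact_mod_cast hsum
    exact_mod_cast mul_left_cancel₀ hn0.ne' h3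
  rw [t4eiOrd_eq lo hwi, t4eiOrd_eq up hwu, ← hf]
  exact key

/-- the normalised valuation of `α (ϖ^lo)` on `up.V w` from the multiplicities -/
theorem t4eoa_vnVal_ram (hq : q.Prime) (hl : T4eLink lo up) {w : ℕ} (hw : w ≤ i + 1) {E : ℕ}
    (hE : t4eMult q (i + 1) w = E * t4eMult q i (min w i)) :
    haveI := up.dvr w hw
    t4vnVal (up.V w) ((heckeAlphaBar L (t4eLev N'' q i) q).toRingHom (lo.ϖ (min w i)))
      = exp (-(E : ℤ)) := by
  haveI := up.dvr w hw
  have hw' : min w i ≤ i := Nat.min_le_right w i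
  obtain ⟨n, u, hu1, hu2, eram, hmul⟩ := t4eoa_ram hl hw
  have hμ : (0 : ℤ) < (t4eMult q i (min w i) : ℤ) := by
    exact_mod_cast t4eoa_mult_pos hq i (min w i)
  have hn : n = (E : ℤ) := by
    have h1 : (t4eMult q (i + 1) w : ℤ) = (E : ℤ) * (t4eMult q i (min w i) : ℤ) := by
      exact_mod_cast hE
    rw [hmul] at h1
    exact mul_right_cancel₀ hμ.ne' h1
  subst hn
  have h0 : u ≠ 0 := by
    rintro rfl
    rw [mul_zero] at eram
    exact lo.ϖ_ne_zero hw' ((map_eq_zero _).mp eram)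
  refine t4ek_vnVal_of_ram (up.V w) (t4ei_unif up hw)
    ⟨u, (t4ei_val_eq_one_iff (up.V w) h0).mpr ⟨hu1, hu2⟩, ?_⟩
  rw [zpow_natCast] at eram
  exact eram

/-- **`ordA_split`**: `ord^lo_i (N_α y) = ord^up_i y + ord^up_{i+1} y` -/
theorem t4eoa_ordA_split (hq : q.Prime) (hl : T4eLink lo up) (hi : 1 ≤ i)
    (y : (↥(TaF L (t4eLev N'' q (i + 1))))ˣ) :
    t4eiOrd lo i (Additive.ofMul (Units.map (t4eiNA L (t4eLev N'' q i) q) y))
      = t4eiOrd up i (Additive.ofMul y) + t4eiOrd up (i + 1) (Additive.ofMul y) := by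
  letI := t4eoaAlg L N'' q i
  haveI := t4eoa_finite hl hi
  haveI := t4eoa_charZero (L := L) (t4eLev N'' q i)
  have hiu : i ≤ i + 1 := by omega
  have e1 : min (i + 1) i = i := by omega
  have e2 : min i i = i := by omega
  haveI := lo.dvr i le_rfl
  have hcomap1 : (up.V (i + 1)).comap (algebraMap ↥(TaF L (t4eLev N'' q i))
      ↥(TaF L (t4eLev N'' q (i + 1)))) = lo.V i := by
    have := hl.comap_α (i + 1) le_rfl
    rw [e1] at this
    exact this
  have hcomap2 : (up.V i).comap (algebraMap ↥(TaF L (t4eLev N'' q i))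
      ↥(TaF L (t4eLev N'' q (i + 1)))) = lo.V i := by
    have := hl.comap_α i hiu
    rw [e2] at this
    exact this
  -- the fibre family `{up.V i, up.V (i + 1)}`
  let 𝒱 : T4vnFam (lo.V i) Bool ↥(TaF L (t4eLev N'' q (i + 1))) :=
    t4eFamOfForall (R := lo.V i) (fun b : Bool => cond b (up.V (i + 1)) (up.V i))
      (fun b => by cases b; exact up.dvr i hiu; exact up.dvr (i + 1) le_rfl)
      (fun a b hab => by
        cases a <;> cases b
        · rfl
        · exact absurd (up.inj i hiu (i + 1) le_rfl hab) (by omega)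
        · exact absurd (up.inj (i + 1) le_rfl i hiu hab) (by omega)
        · rfl)
      (fun b r => by
        cases b
        · exact t4ek_mem_of_comap hcomap2 r.2
        · exact t4ek_mem_of_comap hcomap1 r.2)
      (fun W hW => by
        obtain ⟨w₁, hw₁, e, hmin⟩ := t4eoa_exhaust hl W le_rfl hW
        rcases Nat.lt_or_ge w₁ (i + 1) with h | h
        · have : w₁ = i := by omega
          exact ⟨false, by rw [e, this]; rfl⟩
        · have : w₁ = i + 1 := by omega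
          exact ⟨true, by rw [e, this]; rfl⟩)
  have h₁ := t4ei_unif lo (le_refl i)
  have hπ : t4vnVal (lo.V i) (lo.ϖ i) = exp (-1 : ℤ) := t4e_vnVal_unif (lo.V i) h₁
  have hE1 : t4eMult q (i + 1) (i + 1) = 1 * t4eMult q i (min (i + 1) i) := by
    rw [e1, t4eoa_mult_top, t4eoa_mult_top]
  have hE2 : t4eMult q (i + 1) i = (q - 1) * t4eMult q i (min i i) := by
    rw [e2, t4eoa_mult_top, t4eoa_mult_self hq hi, mul_one]
  have v1 := t4eoa_vnVal_ram hq hl (le_refl (i + 1)) hE1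
  have v2 := t4eoa_vnVal_ram hq hl hiu hE2
  rw [e1] at v1
  rw [e2] at v2
  have key := t4e_fam_ord_norm_split 𝒱 h₁ (ϖ := fun b => cond b (up.ϖ (i + 1)) (up.ϖ i))
    (fun b => by cases b; exact t4ei_unif up hiu; exact t4ei_unif up (le_refl (i + 1)))
    hπ (fun b => cond b 1 (q - 1))
    (fun b => by cases b; exact v2; exact v1)
    (by
      rw [Fintype.sum_bool, t4eoa_finrank hl hi]
      show 1 + (q - 1) = q
      have := hq.one_lt
      omega) y
  rw [Fintype.sum_bool] at key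
  rw [t4eiOrd_eq lo (le_refl i), t4eiOrd_eq up hiu, t4eiOrd_eq up (le_refl (i + 1)), add_comm]
  exact key

/-- **`T4eiNormA` from its two residue fields**: the two order fields are `t4eoa_ordA`,
`t4eoa_ordA_split` -/
theorem t4eoa_normA_of_res {k : Type*} [Field k] {π : ↥O →+* k} {hπ : Function.Surjective π}
    {lo : T4eLayer O π hπ N'' q i} {up : T4eLayer O π hπ N'' q (i + 1)}
    (hq : q.Prime) (hl : T4eLink lo up) (hi : 1 ≤ i)
    (resA : ∀ w, w + 1 ≤ i → ∀ (y : ↥(TaF L (t4eLev N'' q (i + 1)))) (hy : y ∈ up.V w),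
      ∃ h : t4nNormA L (t4eLev N'' q i) q y ∈ lo.V w,
        qExpand k (q ^ t4eShiftA i w) (lo.ρ w ⟨_, h⟩) = up.ρ w ⟨y, hy⟩ ^ q)
    (resA_split : ∀ (y : ↥(TaF L (t4eLev N'' q (i + 1)))) (hy : y ∈ up.V (i + 1))
      (hy' : y ∈ up.V i), ∃ h : t4nNormA L (t4eLev N'' q i) q y ∈ lo.V i,
        lo.ρ i ⟨_, h⟩ = up.ρ (i + 1) ⟨y, hy⟩ * up.ρ i ⟨y, hy'⟩ ^ (q - 1)) :
    T4eiNormA lo up :=
  ⟨fun w hw y => t4eoa_ordA hq hl hi hw y, fun y => t4eoa_ordA_split hq hl hi y, resA, resA_split⟩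

end OrdA

end Fermat.Agent.T4
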