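/-
T4E-V5 (helper7): **completeness criteria** for a finite family of discrete valuation subrings of
`L` over a discrete valuation subring `R` of `K` (`K ⊆ L` finite, characteristic zero).

* `t4e_compl_of_forall`: if every valuation subring of `L` lying over `R` is a member of the family
  then the family is complete (an element lying in all members is integral over `R`).
* `t4eFamOfForall`: the corresponding `T4vnFam`.
-/
import Mathlib
import Fermat.Agent.Lib.T4.Inst.NormVS

set_option autoImplicit false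
set_option linter.unusedSectionVars false
set_option linter.style.haveILetI false

namespace Fermat.Agent.T4E

open Function IsDedekindDomain WithZero Fermat.Agent.T3 Fermat.Agent.T4

section Compl

variable {K L : Type*} [Field K] [Field L] [Algebra K L] [FiniteDimensional K L] [CharZero K]
  (R : ValuationSubring K) [IsDiscreteValuationRing R]

attribute [local instance] t4vnS_isDedekindDomain t4vnS_isFractionRing t4vnS_moduleFinite
  t4vnS_isTorsionFree t4vnR_perfectField t4vnS_fintype

/-- the valuation subring of a prime of the integral closure lies over `R` -/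
theorem t4e_valuationSubring_comap (Q : HeightOneSpectrum (t4vnS L R)) :
    ((Q.valuation L).valuationSubring).comap (algebraMap K L) = R := by
  ext y
  rw [ValuationSubring.mem_comap, Valuation.mem_valuationSubring_iff]
  constructor
  · intro hy
    by_contra hyR
    have hinv : y⁻¹ ∈ R := (R.mem_or_inv_mem y).resolve_left hyR
    have hy0 : y ≠ 0 := by
      rintro rfl
      exact hyR R.zero_mem
    have hnu : (⟨y⁻¹, hinv⟩ : ↥R) ∈ IsLocalRing.maximalIdeal ↥R := by
      rw [IsLocalRing.mem_maximalIdeal, mem_nonunits_iff]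
      intro hu
      apply hyR
      obtain ⟨b, hb⟩ := isUnit_iff_exists_inv.mp hu
      have h1 : y⁻¹ * (b : K) = 1 := by
        have := congrArg Subtype.val hb
        simpa using this
      have h2 : (b : K) = y := by
        field_simp at h1
        exact h1
      rw [← h2]
      exact b.2
    have hmem := t3h_algebraMap_mem Q hnu
    rw [← HeightOneSpectrum.valuation_lt_one_iff_mem (K := L)] at hmem
    have hmem' : Q.valuation L (algebraMap K L y⁻¹) < 1 := hmem
    rw [map_inv₀, map_inv₀] at hmem'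
    have hpos : 0 < Q.valuation L (algebraMap K L y) :=
      zero_lt_iff.mpr ((Valuation.ne_zero_iff _).mpr (by rwa [ne_eq, map_eq_zero]))
    have := (inv_lt_one₀ hpos).mp hmem'
    exact absurd hy (not_le.mpr this)
  · intro hy
    have h := Q.valuation_le_one (K := L) (algebraMap ↥R (t4vnS L R) ⟨y, hy⟩)
    exact h

variable {R} {ι : Type*} (V : ι → ValuationSubring L)

/-- **completeness from exhaustion**: if every valuation subring of `L` lying over `R` belongs to
the family, then an element lying in all members is integral over `R` -/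
theorem t4e_compl_of_forall
    (hall : ∀ W : ValuationSubring L, W.comap (algebraMap K L) = R → ∃ i, W = V i)
    (x : L) (hx : ∀ i, x ∈ V i) : IsIntegral ↥R x := by
  have key : ∀ Q : HeightOneSpectrum (t4vnS L R), Q.valuation L x ≤ 1 := by
    intro Q
    obtain ⟨i, hi⟩ := hall _ (t4e_valuationSubring_comap R Q)
    rw [← Valuation.mem_valuationSubring_iff, hi]
    exact hx i
  obtain ⟨s, hs⟩ := HeightOneSpectrum.mem_integers_of_valuation_le_one L x key
  rw [← hs]
  exact s.2

/-- the complete family attached to an exhaustive list of discrete valuation subrings over `R` -/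
def t4eFamOfForall (hdvr : ∀ i, IsDiscreteValuationRing ↥(V i)) (hinj : Injective V)
    (hle : ∀ i, ∀ r : ↥R, algebraMap ↥R L r ∈ V i)
    (hall : ∀ W : ValuationSubring L, W.comap (algebraMap K L) = R → ∃ i, W = V i) :
    T4vnFam R ι L where
  V := V
  dvr := hdvr
  inj := hinj
  le := hle
  compl := t4e_compl_of_forall V hall

end Compl

section Count

variable {K L : Type*} [Field K] [Field L] [Algebra K L] [FiniteDimensional K L] [CharZero K]
  {R : ValuationSubring K} [IsDiscreteValuationRing R]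

attribute [local instance] t4vnS_isDedekindDomain t4vnS_isFractionRing t4vnS_moduleFinite
  t4vnS_isTorsionFree t4vnR_perfectField t4vnS_fintype

section Single

variable (W : ValuationSubring L) [IsDiscreteValuationRing W]
  (hW : ∀ r : ↥R, algebraMap ↥R L r ∈ W)

/-- the inclusion of the integral closure in a valuation subring containing `R` -/
noncomputable def t4eToW : t4vnS L R →+* ↥W :=
  (algebraMap (t4vnS L R) L).codRestrict W.toSubring (t4vnS_le W hW)

theorem t4e_centre_eq_comap_toW :
    (t4vnCentre R W hW).asIdeal = Ideal.comap (t4eToW W hW) (IsLocalRing.maximalIdeal ↥W) := rfl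

/-- every element of `W` is congruent to an element of the integral closure -/
theorem t4e_exists_toW_sub_mem (w : ↥W) :
    ∃ s : t4vnS L R, t4eToW W hW s - w ∈ IsLocalRing.maximalIdeal ↥W := by
  set Q := t4vnCentre R W hW with hQ
  have hw : Q.valuation L (w : L) ≤ 1 := by
    rw [hQ, t4vnCentre_valuation, t4vnVal_le_one_iff]
    exact w.2
  obtain ⟨n, d, hnd⟩ := Q.exists_primeCompl_mul_eq_of_integer (w : L) hw
  have hd : (d : t4vnS L R) ∉ Q.asIdeal := d.2
  haveI : Q.asIdeal.IsMaximal := Q.isMaximal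
  obtain ⟨c, hc⟩ := Ideal.Quotient.exists_inv (I := Q.asIdeal)
    (a := Ideal.Quotient.mk Q.asIdeal (d : t4vnS L R))
    (by rwa [ne_eq, Ideal.Quotient.eq_zero_iff_mem])
  obtain ⟨c, rfl⟩ := Ideal.Quotient.mk_surjective c
  rw [← map_mul, ← map_one (Ideal.Quotient.mk Q.asIdeal), Ideal.Quotient.eq] at hc
  refine ⟨n * c, ?_⟩
  have hmem : t4eToW W hW ((d : t4vnS L R) * c - 1) ∈ IsLocalRing.maximalIdeal ↥W := hc
  have heq : t4eToW W hW (n * c) - w = w * t4eToW W hW ((d : t4vnS L R) * c - 1) := by
    apply Subtype.ext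
    show (n : L) * (c : L) - (w : L) = (w : L) * (((d : t4vnS L R) : L) * (c : L) - 1)
    have : (w : L) * ((d : t4vnS L R) : L) = (n : L) := hnd
    rw [← this]
    ring
  rw [heq]
  exact Ideal.mul_mem_left _ _ hmem

variable {κ κ' : Type*} [Field κ] [Field κ'] [Algebra κ κ'] (ρ : ↥R →+* κ) (hρ : Surjective ρ)
  (ρ' : ↥W →+* κ') (hρ' : Surjective ρ')
  (hcomp : ∀ r : ↥R, ρ' ⟨algebraMap ↥R L r, hW r⟩ = algebraMap κ κ' (ρ r))

include hρ hρ' hcomp in
/-- the residue degree of the centre of `W` is the degree of the residue extension -/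
theorem t4e_inertiaDeg_centre :
    (t4vnCentre R W hW).asIdeal.inertiaDeg ↥R = Module.finrank κ κ' := by
  classical
  have hkerρ : RingHom.ker ρ = IsLocalRing.maximalIdeal ↥R :=
    IsLocalRing.eq_maximalIdeal (RingHom.ker_isMaximal_of_surjective ρ hρ)
  have hkerρ' : RingHom.ker ρ' = IsLocalRing.maximalIdeal ↥W :=
    IsLocalRing.eq_maximalIdeal (RingHom.ker_isMaximal_of_surjective ρ' hρ')
  set Q := t4vnCentre R W hW with hQ
  haveI hlo : Q.asIdeal.LiesOver (IsLocalRing.maximalIdeal ↥R) := t3h_liesOver_maximalIdeal Q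
  haveI hQmax : Q.asIdeal.IsMaximal := Q.isMaximal
  rw [Ideal.inertiaDeg_eq_of_isMaximal (IsLocalRing.maximalIdeal ↥R) Q.asIdeal]
  set ρS : t4vnS L R →+* κ' := ρ'.comp (t4eToW W hW) with hρS
  have hρSsurj : Surjective ρS := by
    intro z
    obtain ⟨w, rfl⟩ := hρ' z
    obtain ⟨s, hs⟩ := t4e_exists_toW_sub_mem W hW w
    refine ⟨s, ?_⟩
    rw [← hkerρ', RingHom.mem_ker, map_sub, sub_eq_zero] at hs
    exact hs
  have hkerS : RingHom.ker ρS = Q.asIdeal := by
    rw [hQ, t4e_centre_eq_comap_toW, ← hkerρ']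
    rfl
  let e₁ : (↥R ⧸ IsLocalRing.maximalIdeal ↥R) ≃+* κ :=
    (Ideal.quotEquivOfEq hkerρ.symm).trans (RingHom.quotientKerEquivOfSurjective hρ)
  let e₂ : (t4vnS L R ⧸ Q.asIdeal) ≃+* κ' :=
    (Ideal.quotEquivOfEq hkerS.symm).trans (RingHom.quotientKerEquivOfSurjective hρSsurj)
  apply Algebra.finrank_eq_of_equiv_equiv e₁ e₂
  apply Ideal.Quotient.ringHom_ext
  ext r
  simp only [RingHom.coe_comp, Function.comp_apply, RingEquiv.toRingHom_eq_coe, RingHom.coe_coe]
  rw [Ideal.Quotient.algebraMap_mk_of_liesOver]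
  show algebraMap κ κ' (ρ r) = ρS (algebraMap ↥R (t4vnS L R) r)
  rw [← hcomp r]
  rfl

end Single

/-- the fundamental identity over all primes of the integral closure, with the ramification
indices read off a uniformiser of `R` -/
theorem t4e_sum_e_mul_f_all {π : K} (hπ : t4vnVal R π = exp (-1 : ℤ))
    (eQ : HeightOneSpectrum (t4vnS L R) → ℕ)
    (heQ : ∀ Q : HeightOneSpectrum (t4vnS L R),
      Q.valuation L (algebraMap K L π) = exp (-(eQ Q : ℤ))) :
    ∑ Q : HeightOneSpectrum (t4vnS L R), eQ Q * Q.asIdeal.inertiaDeg ↥R = Module.finrank K L := by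
  have hπ0 : π ≠ 0 := by
    rintro rfl
    rw [map_zero] at hπ
    exact (exp_ne_zero).symm hπ
  have hπL : algebraMap K L π ≠ 0 := by rwa [ne_eq, map_eq_zero]
  have h := t4vn_valuation_norm (R := ↥R) (S := t4vnS L R) (F := K) (F' := L)
    (algebraMap K L π) hπL
  rw [Algebra.norm_algebraMap, map_pow, show (t3hMax ↥R).valuation K π = exp (-1 : ℤ) from hπ,
    ← exp_nsmul] at h
  simp_rw [heQ, ← exp_nsmul] at h
  have h2 : ∀ Q : HeightOneSpectrum (t4vnS L R),
      exp (Q.asIdeal.inertiaDeg ↥R • -(eQ Q : ℤ))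
        = exp (-((eQ Q * Q.asIdeal.inertiaDeg ↥R : ℕ) : ℤ)) := by
    intro Q
    congr 1
    push_cast
    simp only [nsmul_eq_mul]
    ring
  simp_rw [h2] at h
  rw [t3h_prod_exp] at h
  have h3 := exp_injective h
  simp only [nsmul_eq_mul, mul_neg, mul_one, neg_inj] at h3
  exact_mod_cast h3.symm

variable {ι : Type*} [Fintype ι] (V : ι → ValuationSubring L)
  [hdvr : ∀ i, IsDiscreteValuationRing ↥(V i)]

/-- **the counting criterion**: a finite family of pairwise distinct discrete valuation subrings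
of `L` containing `R` with `[L : K] ≤ ∑ e i * f i` is complete -/
theorem t4e_compl_of_count (hinj : Injective V) (hle : ∀ i, ∀ r : ↥R, algebraMap ↥R L r ∈ V i)
    {κ : Type*} [Field κ] {κ' : ι → Type*} [∀ i, Field (κ' i)] [∀ i, Algebra κ (κ' i)]
    (ρ : ↥R →+* κ) (hρ : Surjective ρ) (ρ' : ∀ i, ↥(V i) →+* κ' i)
    (hρ' : ∀ i, Surjective (ρ' i))
    (hcomp : ∀ (i : ι) (r : ↥R),
      ρ' i ⟨algebraMap ↥R L r, hle i r⟩ = algebraMap κ (κ' i) (ρ r))
    {π : K} (hπ : t4vnVal R π = exp (-1 : ℤ)) (e : ι → ℕ)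
    (he : ∀ i, t4vnVal (V i) (algebraMap K L π) = exp (-(e i : ℤ)))
    (hcount : Module.finrank K L ≤ ∑ i, e i * Module.finrank κ (κ' i))
    (x : L) (hx : ∀ i, x ∈ V i) : IsIntegral ↥R x := by
  classical
  -- the centres
  set c : ι → HeightOneSpectrum (t4vnS L R) := fun i => t4vnCentre R (V i) (hle i) with hc
  have hcval : ∀ i, (c i).valuation L = t4vnVal (V i) := fun i =>
    t4vnCentre_valuation R (V i) (hle i)
  have hcinj : Injective c := by
    intro i j hij
    apply hinj
    ext y
    rw [← t4vnVal_le_one_iff, ← t4vnVal_le_one_iff, ← hcval, ← hcval, hij]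
  -- ramification indices of all primes
  obtain ⟨hπmem, hπmax⟩ := t4vn_maximalIdeal_eq_span R hπ
  have hπ0 : π ≠ 0 := by
    rintro rfl
    rw [map_zero] at hπ
    exact (exp_ne_zero).symm hπ
  have hex : ∀ Q : HeightOneSpectrum (t4vnS L R), ∃ n : ℕ, 0 < n ∧
      Q.valuation L (algebraMap K L π) = exp (-(n : ℤ)) := by
    intro Q
    have hne : Q.valuation L (algebraMap K L π) ≠ 0 :=
      (Valuation.ne_zero_iff _).mpr (by rwa [ne_eq, map_eq_zero])
    have hmem : (⟨π, hπmem⟩ : ↥R) ∈ IsLocalRing.maximalIdeal ↥R := by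
      rw [hπmax]; exact Ideal.mem_span_singleton_self _
    have hlt : Q.valuation L (algebraMap K L π) < 1 := by
      have := t3h_algebraMap_mem Q hmem
      rw [← HeightOneSpectrum.valuation_lt_one_iff_mem (K := L)] at this
      exact this
    have hv : Q.valuation L (algebraMap K L π)
        = exp (log (Q.valuation L (algebraMap K L π))) := (exp_log hne).symm
    set a := log (Q.valuation L (algebraMap K L π)) with ha
    rw [hv, ← exp_zero, exp_lt_exp] at hlt
    refine ⟨(-a).toNat, by omega, ?_⟩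
    rw [hv, exp_inj]
    omega
  choose eQ heQpos heQ using hex
  have htot := t4e_sum_e_mul_f_all hπ eQ heQ
  -- the members of the family
  have hei : ∀ i, eQ (c i) = e i := by
    intro i
    have h1 := heQ (c i)
    rw [hcval, he i, exp_inj] at h1
    omega
  have hfi : ∀ i, (c i).asIdeal.inertiaDeg ↥R = Module.finrank κ (κ' i) := fun i =>
    t4e_inertiaDeg_centre (V i) (hle i) ρ hρ (ρ' i) (hρ' i) (hcomp i)
  have himg : ∑ Q ∈ Finset.univ.image c, eQ Q * Q.asIdeal.inertiaDeg ↥R
      = ∑ i, e i * Module.finrank κ (κ' i) := by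
    rw [Finset.sum_image (fun i _ j _ h => hcinj h)]
    exact Finset.sum_congr rfl fun i _ => by rw [hei, hfi]
  -- every prime is a centre
  have hsurj : ∀ Q : HeightOneSpectrum (t4vnS L R), ∃ i, c i = Q := by
    intro Q
    by_contra hQ
    push Not at hQ
    have hQnot : Q ∉ Finset.univ.image c := by
      intro hmem
      obtain ⟨i, -, hi⟩ := Finset.mem_image.mp hmem
      exact hQ i hi
    have hpos : 0 < eQ Q * Q.asIdeal.inertiaDeg ↥R := by
      haveI : Q.asIdeal.IsPrime := Q.isPrime
      exact Nat.mul_pos (heQpos Q) (Ideal.inertiaDeg_pos Q.asIdeal ↥R)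
    have hlt : ∑ Q ∈ Finset.univ.image c, eQ Q * Q.asIdeal.inertiaDeg ↥R
        < ∑ Q : HeightOneSpectrum (t4vnS L R), eQ Q * Q.asIdeal.inertiaDeg ↥R := by
      apply Finset.sum_lt_sum_of_subset (Finset.subset_univ _) (Finset.mem_univ Q) hQnot hpos
      intro j _ _
      exact Nat.zero_le _
    rw [himg, htot] at hlt
    exact absurd hcount (not_le.mpr hlt)
  -- conclusion
  have key : ∀ Q : HeightOneSpectrum (t4vnS L R), Q.valuation L x ≤ 1 := by
    intro Q
    obtain ⟨i, rfl⟩ := hsurj Q
    rw [hcval, t4vnVal_le_one_iff]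
    exact hx i
  obtain ⟨s, hs⟩ := HeightOneSpectrum.mem_integers_of_valuation_le_one L x key
  rw [← hs]
  exact s.2

/-- the complete family given by the counting criterion -/
def t4eFamOfCount (hinj : Injective V) (hle : ∀ i, ∀ r : ↥R, algebraMap ↥R L r ∈ V i)
    {κ : Type*} [Field κ] {κ' : ι → Type*} [∀ i, Field (κ' i)] [∀ i, Algebra κ (κ' i)]
    (ρ : ↥R →+* κ) (hρ : Surjective ρ) (ρ' : ∀ i, ↥(V i) →+* κ' i)
    (hρ' : ∀ i, Surjective (ρ' i))
    (hcomp : ∀ (i : ι) (r : ↥R),
      ρ' i ⟨algebraMap ↥R L r, hle i r⟩ = algebraMap κ (κ' i) (ρ r))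
    {π : K} (hπ : t4vnVal R π = exp (-1 : ℤ)) (e : ι → ℕ)
    (he : ∀ i, t4vnVal (V i) (algebraMap K L π) = exp (-(e i : ℤ)))
    (hcount : Module.finrank K L ≤ ∑ i, e i * Module.finrank κ (κ' i)) : T4vnFam R ι L where
  V := V
  dvr := hdvr
  inj := hinj
  le := hle
  compl := t4e_compl_of_count V hinj hle ρ hρ ρ' hρ' hcomp hπ e he hcount

end Count

end Fermat.Agent.T4E
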