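/-
T4E-P5 NORM (helper7): **the norm formulas of the tower** `F_i ⊂ F_{i+1}` in the language of
helper9's vertical layers (`Lib/T4E/Tower/Defs.lean`).

`lo : T4eLayer … i`, `up : T4eLayer … (i + 1)`, and a *link along an embedding*
`φ : F_i →+* F_{i+1}` (`T4eLinkAt lo up φ m s`: label map `m`, residue shifts `s`, exhaustion of the
fibres, degree `q`); `φ = α` with `m w = min w i` and `φ = β` with `m w = w - 1` are the two cases.

* `T4eLayer.t4en_unif`, `T4eLayer.t4en_ord` : the elementary order functions of the layer;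
* `T4eLinkAt.fam` : the fibre over `lo.V w'` as a complete family `T4vnFam`;
* `T4eLinkAt.ord_norm_unique`, `T4eLinkAt.ord_norm_split` : orders of norms;
* `T4eLinkAt.res_norm_frob` : residues of norms at the non-split points.
-/
import Mathlib
import Fermat.Agent.Lib.T4E.Tower.Defs
import Fermat.Agent.Lib.T2.Inst.FrobE
import Fermat.Agent.Lib.T4E.Norm.Forms
import Fermat.Agent.Lib.T4E.Norm.Compl

set_option autoImplicit false
set_option linter.unusedSectionVars false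
set_option linter.unusedVariables false
set_option linter.style.haveILetI false

open HahnSeries ModularCurve Fermat.Agent.T1 Fermat.Agent.T2 Fermat.Agent.T3 Fermat.Agent.T4E
open Function IsDedekindDomain WithZero

noncomputable section

namespace Fermat.Agent.T4

section Layer

variable {L : Type} [Field L] [Algebra ℚ L] {O : ValuationSubring L} {k : Type*} [Field k]
  {π : ↥O →+* k} [IsDiscreteValuationRing ↥O] {hπ : Function.Surjective π}
  {N'' q : ℕ} [NeZero N''] [NeZero q] {i : ℕ} (Y : T4eLayer O π hπ N'' q i)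

instance t4en_charZero_TaF (N : ℕ) : CharZero ↥(TaF L N) :=
  haveI : CharZero L := algebraRat.charZero L
  charZero_of_injective_algebraMap (algebraMap L ↥(TaF L N)).injective

theorem T4eLayer.t4en_ϖ_ne_zero [hq : Fact q.Prime] {w : ℕ} (hw : w ≤ i) : Y.ϖ w ≠ 0 := by
  intro h0
  obtain ⟨u, -, hu⟩ := Y.q_eq w hw
  have hpos : 0 < t4eMult q i w := by
    rw [t4eMult]
    exact Nat.totient_pos.mpr (pow_pos hq.out.pos _)
  rw [h0, zero_pow hpos.ne', zero_mul] at hu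
  exact (Nat.cast_ne_zero.mpr hq.out.ne_zero) hu

/-- the elementary uniformiser predicate of a vertical valuation ring of the layer -/
theorem T4eLayer.t4en_unif [hq : Fact q.Prime] {w : ℕ} (hw : w ≤ i) :
    T4niUnif (Y.V w).toSubring (Y.ϖ w) where
  mem := by
    show Y.ϖ w ∈ Y.V w
    rw [← ValuationSubring.valuation_le_one_iff]
    exact (Y.ϖ_lt w hw).le
  inv_notMem := by
    intro hmem
    have h1 : (Y.V w).valuation (Y.ϖ w)⁻¹ ≤ 1 := (ValuationSubring.valuation_le_one_iff _ _).mpr hmem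
    have h2 := Y.ϖ_lt w hw
    have hne : (Y.V w).valuation (Y.ϖ w) ≠ 0 :=
      (Valuation.ne_zero_iff _).mpr (Y.t4en_ϖ_ne_zero hw)
    have h3 : (Y.V w).valuation (Y.ϖ w) * (Y.V w).valuation (Y.ϖ w)⁻¹ = 1 := by
      rw [← map_mul, mul_inv_cancel₀ (Y.t4en_ϖ_ne_zero hw), map_one]
    have h4 : (Y.V w).valuation (Y.ϖ w) * (Y.V w).valuation (Y.ϖ w)⁻¹ < 1 := by
      calc (Y.V w).valuation (Y.ϖ w) * (Y.V w).valuation (Y.ϖ w)⁻¹
          ≤ (Y.V w).valuation (Y.ϖ w) * 1 := mul_le_mul_right h1 _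
        _ = (Y.V w).valuation (Y.ϖ w) := mul_one _
        _ < 1 := h2
    rw [h3] at h4
    exact lt_irrefl _ h4
  exists_zpow := by
    intro f hf
    obtain ⟨n, u, hu, hfu⟩ := Y.ϖ_unif w hw f hf
    have hu0 : u ≠ 0 := by
      rintro rfl
      rw [map_zero] at hu
      exact zero_ne_one hu
    refine ⟨n, u, ?_, ?_, hfu⟩
    · show u ∈ Y.V w
      rw [← ValuationSubring.valuation_le_one_iff, hu]
    · show u⁻¹ ∈ Y.V w
      rw [← ValuationSubring.valuation_le_one_iff, map_inv₀, hu, inv_one]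

/-- the order function of a vertical valuation ring of the layer -/
def T4eLayer.t4en_ord [hq : Fact q.Prime] {w : ℕ} (hw : w ≤ i) :
    Additive (↥(TaF L (t4eLev N'' q i)))ˣ →+ ℤ :=
  (Y.t4en_unif hw).ord

theorem T4eLayer.t4en_ord_congr [hq : Fact q.Prime] {j : ℕ} (Y : T4eLayer O π hπ N'' q j)
    {w w' : ℕ} (h : w' = w) (hw' : w' ≤ j) (hw : w ≤ j) : Y.t4en_ord hw' = Y.t4en_ord hw := by
  subst h
  rfl

theorem T4eLayer.t4en_ρ_congr {j : ℕ} (Y : T4eLayer O π hπ N'' q j) {w w' : ℕ} (h : w' = w)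
    (x : ↥(TaF L (t4eLev N'' q j))) (hx' : x ∈ Y.V w') (hx : x ∈ Y.V w) :
    Y.ρ w' ⟨x, hx'⟩ = Y.ρ w ⟨x, hx⟩ := by
  subst h
  rfl

end Layer

section Link

variable {L : Type} [Field L] [Algebra ℚ L] {O : ValuationSubring L} {k : Type*} [Field k]
  {π : ↥O →+* k} [IsDiscreteValuationRing ↥O] {hπ : Function.Surjective π}
  {N'' q : ℕ} [NeZero N''] [NeZero q] {i : ℕ}
  (lo : T4eLayer O π hπ N'' q i) (up : T4eLayer O π hπ N'' q (i + 1))
  [Algebra ↥(TaF L (t4eLev N'' q i)) ↥(TaF L (t4eLev N'' q (i + 1)))]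

/-- **a link between consecutive layers along an embedding** `F_i → F_{i+1}` (the ambient algebra
structure): label map `m`, residue shifts `s`, exhaustion of the fibres, degree `q` -/
structure T4eLinkAt (m s : ℕ → ℕ) : Prop where
  m_le : ∀ w ≤ i + 1, m w ≤ i
  comap : ∀ w ≤ i + 1,
    (up.V w).comap (algebraMap ↥(TaF L (t4eLev N'' q i)) ↥(TaF L (t4eLev N'' q (i + 1))))
      = lo.V (m w)
  ρ_comp : ∀ w ≤ i + 1, ∀ (x : ↥(TaF L (t4eLev N'' q i))) (hx : x ∈ lo.V (m w))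
    (hx' : algebraMap ↥(TaF L (t4eLev N'' q i)) ↥(TaF L (t4eLev N'' q (i + 1))) x ∈ up.V w),
    up.ρ w ⟨_, hx'⟩ = qExpand k (q ^ s w) (lo.ρ (m w) ⟨x, hx⟩)
  fib : ∀ W : ValuationSubring ↥(TaF L (t4eLev N'' q (i + 1))), ∀ w' ≤ i,
    W.comap (algebraMap ↥(TaF L (t4eLev N'' q i)) ↥(TaF L (t4eLev N'' q (i + 1)))) = lo.V w' →
      ∃ w ≤ i + 1, W = up.V w
  deg : Module.finrank ↥(TaF L (t4eLev N'' q i)) ↥(TaF L (t4eLev N'' q (i + 1))) = q

variable {lo up} {m s : ℕ → ℕ} (hl : T4eLinkAt lo up m s)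

include hl in
theorem T4eLinkAt.finiteDimensional [hq : Fact q.Prime] :
    FiniteDimensional ↥(TaF L (t4eLev N'' q i)) ↥(TaF L (t4eLev N'' q (i + 1))) :=
  Module.finite_of_finrank_pos (by rw [hl.deg]; exact hq.out.pos)

include hl in
/-- the members of the fibre contain the base valuation ring -/
theorem T4eLinkAt.le_mem {w : ℕ} (hw : w ≤ i + 1) (r : ↥(lo.V (m w))) :
    algebraMap ↥(lo.V (m w)) ↥(TaF L (t4eLev N'' q (i + 1))) r ∈ up.V w := by
  have h : (r : ↥(TaF L (t4eLev N'' q i))) ∈ (up.V w).comap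
      (algebraMap ↥(TaF L (t4eLev N'' q i)) ↥(TaF L (t4eLev N'' q (i + 1)))) := by
    rw [hl.comap w hw]
    exact r.2
  exact h

/-- **the fibre over `lo.V w'` as a complete family**, indexed by any labelling `lab : ι → ℕ` of
the fibre `{w ≤ i + 1 | m w = w'}` -/
def T4eLinkAt.fam [hq : Fact q.Prime] {w' : ℕ} (hw' : w' ≤ i) {ι : Type*} (lab : ι → ℕ)
    (hinj : Injective lab) (hle : ∀ j, lab j ≤ i + 1) (hm : ∀ j, m (lab j) = w')
    (hsurj : ∀ w ≤ i + 1, m w = w' → ∃ j, lab j = w) :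
    haveI := hl.finiteDimensional
    haveI := lo.dvr w' hw'
    T4vnFam (lo.V w') ι ↥(TaF L (t4eLev N'' q (i + 1))) :=
  haveI := hl.finiteDimensional
  haveI := lo.dvr w' hw'
  t4eFamOfForall (fun j => up.V (lab j)) (fun j => up.dvr (lab j) (hle j))
    (fun j j' h => hinj (up.inj _ (hle j) _ (hle j') h))
    (fun j r => by
      have h := hl.le_mem (hle j) ⟨(r : ↥(TaF L (t4eLev N'' q i))), by rw [hm j]; exact r.2⟩
      exact h)
    (fun W hW => by
      obtain ⟨w, hw, rfl⟩ := hl.fib W w' hw' hW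
      have h1 := hl.comap w hw
      rw [hW] at h1
      have h2 := lo.inj w' hw' (m w) (hl.m_le w hw) h1
      obtain ⟨j, rfl⟩ := hsurj w hw h2.symm
      exact ⟨j, rfl⟩)

/-- the normalised valuation of `q` at a vertical valuation ring is the multiplicity -/
theorem T4eLayer.t4en_vnVal_q [hq : Fact q.Prime] {j : ℕ} (Y : T4eLayer O π hπ N'' q j) {w : ℕ}
    (hw : w ≤ j) :
    haveI := Y.dvr w hw
    t4vnVal (Y.V w) ((q : ℕ) : ↥(TaF L (t4eLev N'' q j))) = exp (-(t4eMult q j w : ℤ)) := by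
  haveI := Y.dvr w hw
  obtain ⟨u, hu, hqu⟩ := Y.q_eq w hw
  rw [hqu, map_mul, map_pow, t4e_vnVal_unif (Y.V w) (Y.t4en_unif hw),
    (t4vnVal_eq_one_iff (Y.V w) u).mpr hu, mul_one, ← exp_nsmul]
  congr 1
  simp

include hl in
/-- **the ramification index of `up.V w` over `lo.V (m w)`** is the quotient of the
multiplicities -/
theorem T4eLinkAt.exists_e [hq : Fact q.Prime] {w : ℕ} (hw : w ≤ i + 1) :
    haveI := up.dvr w hw
    ∃ e : ℕ, t4eMult q (i + 1) w = e * t4eMult q i (m w) ∧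
      t4vnVal (up.V w) (algebraMap ↥(TaF L (t4eLev N'' q i)) ↥(TaF L (t4eLev N'' q (i + 1)))
        (lo.ϖ (m w))) = exp (-(e : ℤ)) := by
  haveI := up.dvr w hw
  haveI := lo.dvr (m w) (hl.m_le w hw)
  have hmw := hl.m_le w hw
  -- the valuation of the image of the uniformiser
  have hϖ0 : algebraMap ↥(TaF L (t4eLev N'' q i)) ↥(TaF L (t4eLev N'' q (i + 1))) (lo.ϖ (m w))
      ≠ 0 := by
    rw [ne_eq, map_eq_zero]
    exact lo.t4en_ϖ_ne_zero hmw
  have hne : t4vnVal (up.V w) (algebraMap ↥(TaF L (t4eLev N'' q i))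
      ↥(TaF L (t4eLev N'' q (i + 1))) (lo.ϖ (m w))) ≠ 0 := (Valuation.ne_zero_iff _).mpr hϖ0
  have hmemlo : lo.ϖ (m w) ∈ lo.V (m w) := (lo.t4en_unif hmw).mem
  have hle : t4vnVal (up.V w) (algebraMap ↥(TaF L (t4eLev N'' q i))
      ↥(TaF L (t4eLev N'' q (i + 1))) (lo.ϖ (m w))) ≤ 1 :=
    (t4vnVal_le_one_iff _ _).mpr (hl.le_mem hw ⟨_, hmemlo⟩)
  have hv := (exp_log hne).symm
  set a := log (t4vnVal (up.V w) (algebraMap ↥(TaF L (t4eLev N'' q i))
      ↥(TaF L (t4eLev N'' q (i + 1))) (lo.ϖ (m w)))) with ha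
  rw [hv, ← exp_zero, exp_le_exp] at hle
  refine ⟨(-a).toNat, ?_, ?_⟩
  · -- compare the valuations of `q`
    obtain ⟨u, hu, hqu⟩ := lo.q_eq (m w) hmw
    have hu' : t4vnVal (up.V w) (algebraMap ↥(TaF L (t4eLev N'' q i))
        ↥(TaF L (t4eLev N'' q (i + 1))) u) = 1 := by
      have hu0 : u ≠ 0 := by
        rintro rfl
        rw [map_zero] at hu
        exact zero_ne_one hu
      have h1 : u ∈ lo.V (m w) := by
        rw [← ValuationSubring.valuation_le_one_iff, hu]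
      have h2 : u⁻¹ ∈ lo.V (m w) := by
        rw [← ValuationSubring.valuation_le_one_iff, map_inv₀, hu, inv_one]
      have h3 := (t4vnVal_le_one_iff (up.V w) _).mpr (hl.le_mem hw ⟨u, h1⟩)
      have h4 := (t4vnVal_le_one_iff (up.V w) _).mpr (hl.le_mem hw ⟨u⁻¹, h2⟩)
      have h3' : t4vnVal (up.V w) (algebraMap ↥(TaF L (t4eLev N'' q i))
          ↥(TaF L (t4eLev N'' q (i + 1))) u) ≤ 1 := h3
      have h4' : t4vnVal (up.V w) (algebraMap ↥(TaF L (t4eLev N'' q i))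
          ↥(TaF L (t4eLev N'' q (i + 1))) u⁻¹) ≤ 1 := h4
      rw [map_inv₀, map_inv₀] at h4'
      have hpos : 0 < t4vnVal (up.V w) (algebraMap ↥(TaF L (t4eLev N'' q i))
          ↥(TaF L (t4eLev N'' q (i + 1))) u) :=
        zero_lt_iff.mpr ((Valuation.ne_zero_iff _).mpr (by rwa [ne_eq, map_eq_zero]))
      exact le_antisymm h3' ((inv_le_one₀ hpos).mp h4')
    have h5 := up.t4en_vnVal_q hw
    have h6 : ((q : ℕ) : ↥(TaF L (t4eLev N'' q (i + 1))))
        = algebraMap ↥(TaF L (t4eLev N'' q i)) ↥(TaF L (t4eLev N'' q (i + 1)))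
          ((q : ℕ) : ↥(TaF L (t4eLev N'' q i))) := (map_natCast _ q).symm
    rw [h6, hqu, map_mul, map_pow, map_mul, map_pow, hu', mul_one, hv, ← exp_nsmul,
      exp_inj] at h5
    have h7 : (t4eMult q (i + 1) w : ℤ) = ((-a).toNat : ℤ) * (t4eMult q i (m w) : ℤ) := by
      rw [Int.toNat_of_nonneg (by omega)]
      simp only [nsmul_eq_mul] at h5
      linarith
    exact_mod_cast h7
  · rw [hv, exp_inj]
    omega

include hl in
theorem T4eLinkAt.vnVal_ϖ_lo [hq : Fact q.Prime] {w' : ℕ} (hw' : w' ≤ i) :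
    haveI := lo.dvr w' hw'
    t4vnVal (lo.V w') (lo.ϖ w') = exp (-1 : ℤ) := by
  haveI := lo.dvr w' hw'
  exact t4e_vnVal_unif (lo.V w') (lo.t4en_unif hw')

include hl in
/-- **order of a norm at a non-split point**: `ord_lo (N y) = f · ord_up y`, where
`e · f = q` and `e` is the quotient of the multiplicities -/
theorem T4eLinkAt.ord_norm_unique [hq : Fact q.Prime] {w : ℕ} (hw : w ≤ i + 1)
    (huniq : ∀ w₂ ≤ i + 1, m w₂ = m w → w₂ = w) {e f : ℕ}
    (he : t4eMult q (i + 1) w = e * t4eMult q i (m w)) (hef : e * f = q)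
    (y : (↥(TaF L (t4eLev N'' q (i + 1))))ˣ) :
    lo.t4en_ord (hl.m_le w hw) (Additive.ofMul (Units.map
        (Algebra.norm ↥(TaF L (t4eLev N'' q i)) :
          ↥(TaF L (t4eLev N'' q (i + 1))) →* ↥(TaF L (t4eLev N'' q i))) y))
      = (f : ℤ) * up.t4en_ord hw (Additive.ofMul y) := by
  haveI := hl.finiteDimensional
  haveI := lo.dvr (m w) (hl.m_le w hw)
  set 𝒱 := hl.fam (hl.m_le w hw) (fun _ : Unit => w) (fun _ _ _ => rfl) (fun _ => hw)
    (fun _ => rfl) (fun w₂ h₂ hm₂ => ⟨(), (huniq w₂ h₂ hm₂).symm⟩) with h𝒱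
  have h1 := t4e_fam_ord_norm_unique 𝒱 (lo.t4en_unif (hl.m_le w hw)) (ϖ := fun _ => up.ϖ w)
    (fun _ => up.t4en_unif hw) y
  obtain ⟨e₀, he₀, hval⟩ := hl.exists_e hw
  have hsum := 𝒱.sum_e_mul_f (hl.vnVal_ϖ_lo (hl.m_le w hw)) (fun _ => e₀) (fun _ => hval)
  rw [Fintype.sum_unique, hl.deg] at hsum
  have hμ : 0 < t4eMult q i (m w) := by
    rw [t4eMult]
    exact Nat.totient_pos.mpr (pow_pos hq.out.pos _)
  have hee : e₀ = e := Nat.eq_of_mul_eq_mul_right hμ (he₀.symm.trans he)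
  have hepos : 0 < e := by
    rcases Nat.eq_zero_or_pos e with h0 | h0
    · rw [h0, zero_mul] at hef
      exact absurd hef.symm hq.out.ne_zero
    · exact h0
  have hf : 𝒱.f default = f := by
    rw [hee] at hsum
    exact Nat.eq_of_mul_eq_mul_left hepos (hsum.trans hef.symm)
  rw [← hf]
  exact h1

include hl in
/-- **order of a norm at a split point**: `ord_lo (N y) = ord_{w₁} y + ord_{w₂} y` when the
ramification indices add up to `q` -/
theorem T4eLinkAt.ord_norm_split [hq : Fact q.Prime] {w₁ w₂ : ℕ} (h₁ : w₁ ≤ i + 1)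
    (h₂ : w₂ ≤ i + 1) (hne : w₁ ≠ w₂) (hm : m w₂ = m w₁)
    (hfib : ∀ w ≤ i + 1, m w = m w₁ → w = w₁ ∨ w = w₂) {e₁ e₂ : ℕ}
    (he₁ : t4eMult q (i + 1) w₁ = e₁ * t4eMult q i (m w₁))
    (he₂ : t4eMult q (i + 1) w₂ = e₂ * t4eMult q i (m w₁)) (hsum : e₁ + e₂ = q)
    (y : (↥(TaF L (t4eLev N'' q (i + 1))))ˣ) :
    lo.t4en_ord (hl.m_le w₁ h₁) (Additive.ofMul (Units.map
        (Algebra.norm ↥(TaF L (t4eLev N'' q i)) :
          ↥(TaF L (t4eLev N'' q (i + 1))) →* ↥(TaF L (t4eLev N'' q i))) y))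
      = up.t4en_ord h₁ (Additive.ofMul y) + up.t4en_ord h₂ (Additive.ofMul y) := by
  haveI := hl.finiteDimensional
  haveI := lo.dvr (m w₁) (hl.m_le w₁ h₁)
  have hμ : 0 < t4eMult q i (m w₁) := by
    rw [t4eMult]
    exact Nat.totient_pos.mpr (pow_pos hq.out.pos _)
  set lab : Bool → ℕ := fun b => if b then w₁ else w₂ with hlab
  have hlable : ∀ b, lab b ≤ i + 1 := fun b => by cases b <;> simp [hlab, h₁, h₂]
  set 𝒱 := hl.fam (hl.m_le w₁ h₁) lab
    (fun b b' h => by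
      cases b <;> cases b' <;> simp [hlab] at h ⊢
      · exact hne h.symm
      · exact hne h)
    hlable
    (fun b => by cases b <;> simp [hlab, hm])
    (fun w hw hmw => by
      rcases hfib w hw hmw with rfl | rfl
      · exact ⟨true, by simp [hlab]⟩
      · exact ⟨false, by simp [hlab]⟩) with h𝒱
  obtain ⟨e₁', he₁', hval₁⟩ := hl.exists_e h₁
  obtain ⟨e₂', he₂', hval₂⟩ := hl.exists_e h₂
  rw [hm] at he₂' hval₂
  have hee₁ : e₁' = e₁ := Nat.eq_of_mul_eq_mul_right hμ (he₁'.symm.trans he₁)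
  have hee₂ : e₂' = e₂ := Nat.eq_of_mul_eq_mul_right hμ (he₂'.symm.trans he₂)
  have h1 := t4e_fam_ord_norm_split 𝒱 (lo.t4en_unif (hl.m_le w₁ h₁)) (ϖ := fun b => up.ϖ (lab b))
    (fun b => up.t4en_unif (hlable b)) (hl.vnVal_ϖ_lo (hl.m_le w₁ h₁))
    (fun b => if b then e₁ else e₂)
    (fun b => by
      cases b
      · simp only [Bool.false_eq_true, if_false]
        rw [← hee₂]
        exact hval₂
      · simp only [if_true]
        rw [← hee₁]
        exact hval₁)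
    (by rw [Fintype.sum_bool, hl.deg]; simpa using hsum) y
  refine h1.trans ?_
  rw [Fintype.sum_bool]
  rfl

end Link

/-! ### Residues -/

section Res

variable {L : Type} [Field L] [Algebra ℚ L] {O : ValuationSubring L} {k : Type*} [Field k]
  {π : ↥O →+* k} [IsDiscreteValuationRing ↥O] {hπ : Function.Surjective π}
  {N'' q : ℕ} [NeZero N''] [NeZero q] [hq : Fact q.Prime] [IsAlgClosed k] [CharP k q]
  (hN'' : (N'' : k) ≠ 0)

/-- `f(𝔮) ↦ f(𝔮^{q^s})` preserves the residue function field of level `N''` -/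
theorem t4en_qExpand_pow_mem (N'' : ℕ) [NeZero N''] (s : ℕ) {f : LaurentSeries k}
    (hf : f ∈ modularFunctionFieldFullC k N'') :
    qExpand k (q ^ s) f ∈ modularFunctionFieldFullC k N'' := by
  induction s with
  | zero =>
    rw [qExpand_congr (pow_zero q) f, qExpand_one_apply]
    exact hf
  | succ s ih =>
    have h := t2fe_qExpand_mem k q N'' ih
    rw [qExpand_qExpand] at h
    rw [qExpand_congr (pow_succ' q s) f]
    exact h

include hN'' in
/-- the reductions of a layer take values in the residue function field of level `N''` -/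
theorem T4eLayer.t4en_ρ_mem_full {j : ℕ} (Y : T4eLayer O π hπ N'' q j) {w : ℕ} (hw : w ≤ j)
    (x : ↥(Y.V w)) : Y.ρ w x ∈ modularFunctionFieldFullC k N'' := by
  obtain ⟨g, hg⟩ := Y.ρ_range w hw x
  rw [hg, ← taResRange_eq O π hπ N'' hN'']
  exact taResN_mem_taResRange O π hπ N'' g

include hN'' in
/-- the reductions of a layer are onto the residue function field of level `N''` -/
theorem T4eLayer.t4en_ρ_surj {j : ℕ} (Y : T4eLayer O π hπ N'' q j) {w : ℕ} (hw : w ≤ j)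
    {z : LaurentSeries k} (hz : z ∈ modularFunctionFieldFullC k N'') :
    ∃ x : ↥(Y.V w), Y.ρ w x = z := by
  rw [← taResRange_eq O π hπ N'' hN''] at hz
  obtain ⟨g, rfl⟩ := (mem_taResRange_iff O π hπ N'' z).mp hz
  by_cases hc : j - w ≤ w
  · -- `n = 0`
    have h0 : t4eExp j w 0 = 0 := by
      rw [t4eExp, if_pos (Nat.zero_le _)]
      omega
    refine ⟨⟨_, Y.a_mem w hw 0 (Nat.zero_le _) g g.2⟩, ?_⟩
    rw [Y.ρ_a w hw 0 (Nat.zero_le _) g g.2, qExpand_congr (by rw [h0, pow_zero]) _,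
      qExpand_one_apply]
  · -- `n = j`
    have h0 : t4eExp j w j = 0 := by
      rw [t4eExp, if_neg (by omega)]
      omega
    refine ⟨⟨_, Y.a_mem w hw j le_rfl g g.2⟩, ?_⟩
    rw [Y.ρ_a w hw j le_rfl g g.2, qExpand_congr (by rw [h0, pow_zero]) _, qExpand_one_apply]

/-- the reduction of a layer as a homomorphism onto the residue function field of level `N''` -/
def T4eLayer.t4en_ρE {j : ℕ} (Y : T4eLayer O π hπ N'' q j) {w : ℕ} (hw : w ≤ j) :
    ↥(Y.V w) →+* ↥(modularFunctionFieldFullC k N'') :=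
  (Y.ρ w).codRestrict (modularFunctionFieldFullC k N'') (Y.t4en_ρ_mem_full hN'' hw)

theorem T4eLayer.t4en_coe_ρE {j : ℕ} (Y : T4eLayer O π hπ N'' q j) {w : ℕ} (hw : w ≤ j)
    (x : ↥(Y.V w)) :
    ((Y.t4en_ρE hN'' hw x : ↥(modularFunctionFieldFullC k N'')) : LaurentSeries k) = Y.ρ w x := rfl

theorem T4eLayer.t4en_ρE_surjective {j : ℕ} (Y : T4eLayer O π hπ N'' q j) {w : ℕ} (hw : w ≤ j) :
    Surjective (Y.t4en_ρE hN'' hw) := by
  intro z
  obtain ⟨x, hx⟩ := Y.t4en_ρ_surj hN'' hw z.2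
  exact ⟨x, Subtype.ext hx⟩

/-- `Φ^s : f(𝔮) ↦ f(𝔮^{q^s})` on the residue function field of level `N''` -/
def t4enPhiE (k : Type*) [Field k] [IsAlgClosed k] (N'' q : ℕ) [NeZero N''] [NeZero q]
    [hq : Fact q.Prime] [CharP k q] (s : ℕ) :
    ↥(modularFunctionFieldFullC k N'') →+* ↥(modularFunctionFieldFullC k N'') :=
  ((qExpand k (q ^ s)).comp
    (algebraMap ↥(modularFunctionFieldFullC k N'') (LaurentSeries k))).codRestrict
    (modularFunctionFieldFullC k N'') (fun f => t4en_qExpand_pow_mem N'' s f.2)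

theorem coe_t4enPhiE (s : ℕ) (f : ↥(modularFunctionFieldFullC k N'')) :
    ((t4enPhiE k N'' q s f : ↥(modularFunctionFieldFullC k N'')) : LaurentSeries k)
      = qExpand k (q ^ s) (f : LaurentSeries k) := rfl

/-- `Ē ^ q ⊆ Φ^s Ē` for `s ≤ 1` -/
theorem t4en_exists_phiE_eq_pow {s : ℕ} (hs : s ≤ 1) (z : ↥(modularFunctionFieldFullC k N'')) :
    ∃ c : ↥(modularFunctionFieldFullC k N''), z ^ q = t4enPhiE k N'' q s c := by
  rcases Nat.le_one_iff_eq_zero_or_eq_one.mp hs with rfl | rfl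
  · refine ⟨z ^ q, Subtype.ext ?_⟩
    rw [coe_t4enPhiE, qExpand_congr (pow_zero q) _, qExpand_one_apply]
  · refine ⟨⟨coeffMap (frobenius k q) (z : LaurentSeries k),
      tbi_coeffMap_mem_fullC (frobenius k q) N'' z.2⟩, Subtype.ext ?_⟩
    rw [coe_t4enPhiE, qExpand_congr (pow_one q) _]
    show (z : LaurentSeries k) ^ q = _
    exact tkr_pow_char q (z : LaurentSeries k)

end Res

section ResLink

variable {L : Type} [Field L] [Algebra ℚ L] {O : ValuationSubring L} {k : Type*} [Field k]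
  {π : ↥O →+* k} [IsDiscreteValuationRing ↥O] {hπ : Function.Surjective π}
  {N'' q : ℕ} [NeZero N''] [NeZero q] [hq : Fact q.Prime] [IsAlgClosed k] [CharP k q]
  (hN'' : (N'' : k) ≠ 0) {i : ℕ}
  {lo : T4eLayer O π hπ N'' q i} {up : T4eLayer O π hπ N'' q (i + 1)}
  [Algebra ↥(TaF L (t4eLev N'' q i)) ↥(TaF L (t4eLev N'' q (i + 1)))]
  {m s : ℕ → ℕ} (hl : T4eLinkAt lo up m s)

include hl hN'' in
/-- **residue of a norm at a non-split point** (residue-inseparable or totally, possibly wildly,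
ramified): `(ρ_lo (N y))(𝔮^{q^s}) = (ρ_up y) ^ q` -/
theorem T4eLinkAt.res_norm_frob {w : ℕ} (hw : w ≤ i + 1)
    (huniq : ∀ w₂ ≤ i + 1, m w₂ = m w → w₂ = w) (hs : s w ≤ 1)
    (y : ↥(TaF L (t4eLev N'' q (i + 1)))) (hy : y ∈ up.V w) :
    ∃ h : Algebra.norm ↥(TaF L (t4eLev N'' q i)) y ∈ lo.V (m w),
      qExpand k (q ^ s w) (lo.ρ (m w) ⟨_, h⟩) = up.ρ w ⟨y, hy⟩ ^ q := by
  haveI := hl.finiteDimensional
  haveI := lo.dvr (m w) (hl.m_le w hw)
  letI instE : Algebra ↥(modularFunctionFieldFullC k N'') ↥(modularFunctionFieldFullC k N'') :=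
    (t4enPhiE k N'' q (s w)).toAlgebra
  haveI : CharP ↥(modularFunctionFieldFullC k N'') q :=
    charP_of_injective_algebraMap (algebraMap k ↥(modularFunctionFieldFullC k N'')).injective q
  have key := @t4e_fam_res_norm_frob _ _ _ _ _ _ _ _ _ Unit
    (hl.fam (hl.m_le w hw) (fun _ : Unit => w) (fun _ _ _ => rfl) (fun _ => hw)
      (fun _ => rfl) (fun w₂ h₂ hm₂ => ⟨(), (huniq w₂ h₂ hm₂).symm⟩))
    ↥(modularFunctionFieldFullC k N'') _ (fun _ => ↥(modularFunctionFieldFullC k N''))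
    (fun _ => inferInstance) (fun _ => up.t4en_ρE hN'' hw) (fun _ => up.t4en_ρE_surjective hN'' hw)
    (fun _ => instE) (lo.t4en_ρE hN'' (hl.m_le w hw)) (lo.t4en_ρE_surjective hN'' (hl.m_le w hw))
    (fun _ r => Subtype.ext (hl.ρ_comp w hw (r : ↥(TaF L (t4eLev N'' q i))) r.2 _))
    _ _ (hl.vnVal_ϖ_lo (hl.m_le w hw)) q hq.out _ hl.deg
    (fun z => t4en_exists_phiE_eq_pow hs z) y hy
  obtain ⟨h, hN⟩ := key
  refine ⟨h, ?_⟩
  have := congrArg (Subtype.val) hN
  exact this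

include hl hN'' in
/-- **residue of a norm at a split point** (two points `w₁`, `w₂` in the fibre, trivial residue
extensions, ramification indices `e₁`, `e₂`): `ρ_lo (N y) = (ρ_{w₁} y) ^ e₁ * (ρ_{w₂} y) ^ e₂` -/
theorem T4eLinkAt.res_norm_split {w₁ w₂ : ℕ} (h₁ : w₁ ≤ i + 1) (h₂ : w₂ ≤ i + 1)
    (hne : w₁ ≠ w₂) (hm : m w₂ = m w₁)
    (hfib : ∀ w ≤ i + 1, m w = m w₁ → w = w₁ ∨ w = w₂) (hs₁ : s w₁ = 0) (hs₂ : s w₂ = 0)
    {e₁ e₂ : ℕ} (he₁ : t4eMult q (i + 1) w₁ = e₁ * t4eMult q i (m w₁))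
    (he₂ : t4eMult q (i + 1) w₂ = e₂ * t4eMult q i (m w₁))
    (y : ↥(TaF L (t4eLev N'' q (i + 1)))) (hy₁ : y ∈ up.V w₁) (hy₂ : y ∈ up.V w₂) :
    ∃ h : Algebra.norm ↥(TaF L (t4eLev N'' q i)) y ∈ lo.V (m w₁),
      lo.ρ (m w₁) ⟨_, h⟩ = up.ρ w₁ ⟨y, hy₁⟩ ^ e₁ * up.ρ w₂ ⟨y, hy₂⟩ ^ e₂ := by
  haveI := hl.finiteDimensional
  haveI := lo.dvr (m w₁) (hl.m_le w₁ h₁)
  have hμ : 0 < t4eMult q i (m w₁) := by
    rw [t4eMult]
    exact Nat.totient_pos.mpr (pow_pos hq.out.pos _)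
  set lab : Bool → ℕ := fun b => if b then w₁ else w₂ with hlab
  have hlable : ∀ b, lab b ≤ i + 1 := fun b => by cases b <;> simp [hlab, h₁, h₂]
  have hmlab : ∀ b, m (lab b) = m w₁ := fun b => by cases b <;> simp [hlab, hm]
  set 𝒱 := hl.fam (hl.m_le w₁ h₁) lab
    (fun b b' h => by
      cases b <;> cases b' <;> simp [hlab] at h ⊢
      · exact hne h.symm
      · exact hne h)
    hlable hmlab
    (fun w hw hmw => by
      rcases hfib w hw hmw with rfl | rfl
      · exact ⟨true, by simp [hlab]⟩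
      · exact ⟨false, by simp [hlab]⟩) with h𝒱
  obtain ⟨e₁', he₁', hval₁⟩ := hl.exists_e h₁
  obtain ⟨e₂', he₂', hval₂⟩ := hl.exists_e h₂
  rw [hm] at he₂' hval₂
  have hee₁ : e₁' = e₁ := Nat.eq_of_mul_eq_mul_right hμ (he₁'.symm.trans he₁)
  have hee₂ : e₂' = e₂ := Nat.eq_of_mul_eq_mul_right hμ (he₂'.symm.trans he₂)
  have hslab : ∀ b, s (lab b) = 0 := fun b => by cases b <;> simp [hlab, hs₁, hs₂]
  have hylab : ∀ b, y ∈ up.V (lab b) := fun b => by
    cases b
    · exact hy₂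
    · exact hy₁
  have key := @t4e_fam_res_norm _ _ _ _ _ _ _ _ _ Bool 𝒱 _
    ↥(modularFunctionFieldFullC k N'') _ (fun _ => ↥(modularFunctionFieldFullC k N''))
    (fun _ => inferInstance) (fun _ => Algebra.id _)
    (lo.t4en_ρE hN'' (hl.m_le w₁ h₁)) (lo.t4en_ρE_surjective hN'' (hl.m_le w₁ h₁))
    (fun b => up.t4en_ρE hN'' (hlable b)) (fun b => up.t4en_ρE_surjective hN'' (hlable b))
    (fun b r => by
      apply Subtype.ext
      have hx : (r : ↥(TaF L (t4eLev N'' q i))) ∈ lo.V (m (lab b)) := by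
        rw [hmlab b]
        exact r.2
      have h := hl.ρ_comp (lab b) (hlable b) (r : ↥(TaF L (t4eLev N'' q i))) hx
        (hl.le_mem (hlable b) ⟨_, hx⟩)
      rw [qExpand_congr (by rw [hslab b, pow_zero]) _, qExpand_one_apply,
        lo.t4en_ρ_congr (hmlab b) _ hx r.2] at h
      exact h)
    _ (hl.vnVal_ϖ_lo (hl.m_le w₁ h₁)) (fun b => if b then e₁ else e₂)
    (fun b => by
      cases b
      · simp only [Bool.false_eq_true, if_false]
        rw [← hee₂]
        exact hval₂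
      · simp only [if_true]
        rw [← hee₁]
        exact hval₁)
    y hylab
  obtain ⟨h, hN⟩ := key
  refine ⟨h, ?_⟩
  have h2 := congrArg (Subtype.val) hN
  rw [Fintype.prod_bool] at h2
  simp only [Algebra.norm_self, MonoidHom.id_apply, if_true, Bool.false_eq_true, if_false] at h2
  exact h2

end ResLink

/-! ### The two structures `α`, `β` -/

section AlphaBeta

variable {L : Type} [Field L] [Algebra ℚ L] {O : ValuationSubring L} {k : Type*} [Field k]
  {π : ↥O →+* k} [IsDiscreteValuationRing ↥O] {hπ : Function.Surjective π}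
  {N'' q : ℕ} [NeZero N''] [NeZero q] {i : ℕ}
  {lo : T4eLayer O π hπ N'' q i} {up : T4eLayer O π hπ N'' q (i + 1)}

/-- the `α`-structure of `F_{i+1}` over `F_i` (the inclusion) -/
@[reducible] def t4enAlgA (L : Type) [Field L] [Algebra ℚ L] (N'' q i : ℕ) [NeZero N''] [NeZero q] :
    Algebra ↥(TaF L (t4eLev N'' q i)) ↥(TaF L (t4eLev N'' q (i + 1))) :=
  (heckeAlphaBar L (t4eLev N'' q i) q).toRingHom.toAlgebra

/-- the `β`-structure of `F_{i+1}` over `F_i` (`g ↦ g(𝔮^q)`) -/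
@[reducible] def t4enAlgB (L : Type) [Field L] [Algebra ℚ L] (N'' q i : ℕ) [NeZero N''] [NeZero q] :
    Algebra ↥(TaF L (t4eLev N'' q i)) ↥(TaF L (t4eLev N'' q (i + 1))) :=
  (heckeBetaBar L (t4eLev N'' q i) q).toRingHom.toAlgebra

/-- **the link along `α`** -/
theorem T4eLink.t4en_linkAtA (hl : T4eLink lo up) (hi : 1 ≤ i) :
    letI := t4enAlgA L N'' q i
    T4eLinkAt lo up (fun w => min w i) (t4eShiftA i) := by
  letI := t4enAlgA L N'' q i
  refine ⟨fun w _ => min_le_right w i, fun w hw => hl.comap_α w hw,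
    fun w hw x hx hx' => hl.ρ_α w hw x hx hx', ?_, hl.deg hi⟩
  intro W w' hw' hW
  apply up.complete W
  ext f
  have hA : ∀ x : ↥(TaF L (t4eLev N'' q i)),
      algebraMap ↥(TaF L (t4eLev N'' q i)) ↥(TaF L (t4eLev N'' q (i + 1))) x
        = heckeAlphaBar L (t4eLev N'' q i) q x := fun _ => rfl
  have h1 : (t4eDeg L N'' q (i + 1) 0).toRingHom f ∈ W ↔ t4eDeg L N'' q i 0 f ∈ lo.V w' := by
    rw [← hW]
    show t4eDeg L N'' q (i + 1) 0 f ∈ W ↔ _
    rw [t4eDeg_succ_of_le L N'' q (Nat.zero_le i) f, ValuationSubring.mem_comap, hA]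
  rw [ValuationSubring.mem_comap, h1, ← lo.lies_over w' hw' 0 (Nat.zero_le i),
    ValuationSubring.mem_comap]
  generalize t4eDeg L N'' q i 0 = φ
  exact Iff.rfl

/-- **the link along `β`**, given the exhaustion of the `β`-fibres and the degree of the
`β`-structure -/
theorem T4eLink.t4en_linkAtB (hl : T4eLink lo up)
    (hfib : ∀ W : ValuationSubring ↥(TaF L (t4eLev N'' q (i + 1))), ∀ w' ≤ i,
      W.comap (heckeBetaBar L (t4eLev N'' q i) q).toRingHom = lo.V w' → ∃ w ≤ i + 1, W = up.V w)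
    (hdeg : @Module.finrank ↥(TaF L (t4eLev N'' q i)) ↥(TaF L (t4eLev N'' q (i + 1))) _ _
      (t4enAlgB L N'' q i).toModule = q) :
    letI := t4enAlgB L N'' q i
    T4eLinkAt lo up (fun w => w - 1) (t4eShiftB i) := by
  letI := t4enAlgB L N'' q i
  exact ⟨fun w hw => by omega, fun w hw => hl.comap_β w hw,
    fun w hw x hx hx' => hl.ρ_β w hw x hx hx', hfib, hdeg⟩

/-! #### The multiplicities along `α` and `β` -/

theorem t4en_mult_alpha_insep (q : ℕ) {i w : ℕ} (h : 2 * w + 1 ≤ i + 1) :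
    t4eMult q (i + 1) w = 1 * t4eMult q i w := by
  have h1 : min w (i + 1 - w) = w := by omega
  have h2 : min w (i - w) = w := by omega
  rw [t4eMult, t4eMult, h1, h2, one_mul]

theorem t4en_mult_alpha_ram {q : ℕ} (hq : q.Prime) {i w : ℕ} (hw : w + 1 ≤ i)
    (h : ¬ 2 * w + 1 ≤ i + 1) : t4eMult q (i + 1) w = q * t4eMult q i w := by
  have h1 : min w (i + 1 - w) = (i - w - 1) + 1 + 1 := by omega
  have h2 : min w (i - w) = (i - w - 1) + 1 := by omega
  rw [t4eMult, t4eMult, h1, h2, Nat.totient_prime_pow_succ hq, Nat.totient_prime_pow_succ hq,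
    pow_succ]
  ring

theorem t4en_mult_alpha_top (q i : ℕ) : t4eMult q (i + 1) (i + 1) = 1 * t4eMult q i i := by
  simp [t4eMult]

theorem t4en_mult_alpha_split {q : ℕ} (hq : q.Prime) {i : ℕ} (hi : 1 ≤ i) :
    t4eMult q (i + 1) i = (q - 1) * t4eMult q i i := by
  have h1 : min i (i + 1 - i) = 1 := by omega
  rw [t4eMult, t4eMult, h1, Nat.sub_self, Nat.min_zero, pow_zero, pow_one,
    Nat.totient_prime hq, Nat.totient_one, mul_one]

theorem t4en_mult_beta_insep (q : ℕ) {i w : ℕ} (hw : 1 ≤ w) (hwi : w ≤ i + 1)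
    (h : i + 1 + 1 ≤ 2 * w) : t4eMult q (i + 1) w = 1 * t4eMult q i (w - 1) := by
  have h1 : min w (i + 1 - w) = i + 1 - w := by omega
  have h2 : min (w - 1) (i - (w - 1)) = i + 1 - w := by omega
  rw [t4eMult, t4eMult, h1, h2, one_mul]

theorem t4en_mult_beta_ram {q : ℕ} (hq : q.Prime) {i w : ℕ} (hw : 2 ≤ w)
    (h : ¬ i + 1 + 1 ≤ 2 * w) : t4eMult q (i + 1) w = q * t4eMult q i (w - 1) := by
  have h1 : min w (i + 1 - w) = (w - 2) + 1 + 1 := by omega
  have h2 : min (w - 1) (i - (w - 1)) = (w - 2) + 1 := by omega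
  rw [t4eMult, t4eMult, h1, h2, Nat.totient_prime_pow_succ hq, Nat.totient_prime_pow_succ hq,
    pow_succ]
  ring

theorem t4en_mult_beta_bot (q i : ℕ) : t4eMult q (i + 1) 0 = 1 * t4eMult q i (0 - 1) := by
  simp [t4eMult]

theorem t4en_mult_beta_split {q : ℕ} (hq : q.Prime) {i : ℕ} (hi : 1 ≤ i) :
    t4eMult q (i + 1) 1 = (q - 1) * t4eMult q i (0 - 1) := by
  have h1 : min 1 (i + 1 - 1) = 1 := by omega
  rw [t4eMult, t4eMult, h1]
  simp [Nat.totient_prime hq]

/-! #### The norm formulas along `α` -/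

section Final

variable [hq : Fact q.Prime]

/-- **`α`, non-split points, orders**: `ord¹_w (N_α y) = f · ord_w y` for `w + 1 ≤ i`, with
`f = q` if `2 w + 1 ≤ i + 1` (residue-inseparable step) and `f = 1` otherwise (wild step) -/
theorem t4en_ordA (hl : T4eLink lo up) (hi : 1 ≤ i) {w : ℕ} (hw : w + 1 ≤ i)
    (y : (↥(TaF L (t4eLev N'' q (i + 1))))ˣ) :
    lo.t4en_ord (show w ≤ i by omega) (Additive.ofMul (Units.map
        (@Algebra.norm ↥(TaF L (t4eLev N'' q i)) ↥(TaF L (t4eLev N'' q (i + 1))) _ _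
          (t4enAlgA L N'' q i) : ↥(TaF L (t4eLev N'' q (i + 1))) →* ↥(TaF L (t4eLev N'' q i))) y))
      = ((if 2 * w + 1 ≤ i + 1 then q else 1 : ℕ) : ℤ)
        * up.t4en_ord (show w ≤ i + 1 by omega) (Additive.ofMul y) := by
  letI := t4enAlgA L N'' q i
  have hlA := hl.t4en_linkAtA hi
  have hwi : w ≤ i + 1 := by omega
  have hmin : min w i = w := by omega
  have huniq : ∀ w₂ ≤ i + 1, (fun w => min w i) w₂ = (fun w => min w i) w → w₂ = w := by
    intro w₂ h₂ h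
    simp only at h
    omega
  rw [← lo.t4en_ord_congr hmin (hlA.m_le w hwi) (by omega)]
  split_ifs with hc
  · exact hlA.ord_norm_unique hwi huniq (e := 1) (f := q)
      (by simp only [hmin]; exact t4en_mult_alpha_insep q hc) (one_mul q) y
  · exact hlA.ord_norm_unique hwi huniq (e := q) (f := 1)
      (by simp only [hmin]; exact t4en_mult_alpha_ram hq.out hw hc) (mul_one q) y

/-- **`α`, the split point**: `ord¹_i (N_α y) = ord_{i+1} y + ord_i y` -/
theorem t4en_ordA_split (hl : T4eLink lo up) (hi : 1 ≤ i)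
    (y : (↥(TaF L (t4eLev N'' q (i + 1))))ˣ) :
    lo.t4en_ord (le_refl i) (Additive.ofMul (Units.map
        (@Algebra.norm ↥(TaF L (t4eLev N'' q i)) ↥(TaF L (t4eLev N'' q (i + 1))) _ _
          (t4enAlgA L N'' q i) : ↥(TaF L (t4eLev N'' q (i + 1))) →* ↥(TaF L (t4eLev N'' q i))) y))
      = up.t4en_ord (le_refl (i + 1)) (Additive.ofMul y)
        + up.t4en_ord (Nat.le_succ i) (Additive.ofMul y) := by
  letI := t4enAlgA L N'' q i
  have hlA := hl.t4en_linkAtA hi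
  have hmin : min (i + 1) i = i := by omega
  have hmin' : min i i = i := by omega
  rw [← lo.t4en_ord_congr hmin (hlA.m_le (i + 1) le_rfl) le_rfl]
  refine hlA.ord_norm_split (w₁ := i + 1) (w₂ := i) le_rfl (Nat.le_succ i) (by omega)
    (show min i i = min (i + 1) i by omega)
    (fun w hw (h : min w i = min (i + 1) i) => by omega) (e₁ := 1) (e₂ := q - 1)
    (by simp only [hmin]; exact t4en_mult_alpha_top q i)
    (by simp only [hmin]; exact t4en_mult_alpha_split hq.out hi)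
    (by have := hq.out.two_le; omega) y

/-- **`α`, non-split points, residues**: `(ρ¹_w (N_α y))(𝔮^{q^s}) = (ρ_w y) ^ q`, `s = t4eShiftA` -/
theorem t4en_resA [IsAlgClosed k] [CharP k q] (hN'' : (N'' : k) ≠ 0) (hl : T4eLink lo up)
    (hi : 1 ≤ i) {w : ℕ} (hw : w + 1 ≤ i) (y : ↥(TaF L (t4eLev N'' q (i + 1))))
    (hy : y ∈ up.V w) :
    ∃ h : @Algebra.norm ↥(TaF L (t4eLev N'' q i)) ↥(TaF L (t4eLev N'' q (i + 1))) _ _
        (t4enAlgA L N'' q i) y ∈ lo.V w,
      qExpand k (q ^ t4eShiftA i w) (lo.ρ w ⟨_, h⟩) = up.ρ w ⟨y, hy⟩ ^ q := by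
  letI := t4enAlgA L N'' q i
  have hlA := hl.t4en_linkAtA hi
  have hwi : w ≤ i + 1 := by omega
  have hmin : min w i = w := by omega
  have huniq : ∀ w₂ ≤ i + 1, (fun w => min w i) w₂ = (fun w => min w i) w → w₂ = w := by
    intro w₂ h₂ h
    simp only at h
    omega
  have hs : t4eShiftA i w ≤ 1 := by
    rw [t4eShiftA]
    split_ifs <;> omega
  obtain ⟨h, hN⟩ := hlA.res_norm_frob hN'' hwi huniq hs y hy
  have h' : Algebra.norm ↥(TaF L (t4eLev N'' q i)) y ∈ lo.V w := by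
    have := h
    simp only [hmin] at this
    exact this
  refine ⟨h', ?_⟩
  rw [← lo.t4en_ρ_congr hmin _ h h']
  exact hN

/-- **`α`, the split point, residues**: `ρ¹_i (N_α y) = ρ_{i+1} y · (ρ_i y) ^ (q - 1)` -/
theorem t4en_resA_split [IsAlgClosed k] [CharP k q] (hN'' : (N'' : k) ≠ 0) (hl : T4eLink lo up)
    (hi : 1 ≤ i) (y : ↥(TaF L (t4eLev N'' q (i + 1)))) (hy : y ∈ up.V (i + 1))
    (hy' : y ∈ up.V i) :
    ∃ h : @Algebra.norm ↥(TaF L (t4eLev N'' q i)) ↥(TaF L (t4eLev N'' q (i + 1))) _ _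
        (t4enAlgA L N'' q i) y ∈ lo.V i,
      lo.ρ i ⟨_, h⟩ = up.ρ (i + 1) ⟨y, hy⟩ * up.ρ i ⟨y, hy'⟩ ^ (q - 1) := by
  letI := t4enAlgA L N'' q i
  have hlA := hl.t4en_linkAtA hi
  have hmin : min (i + 1) i = i := by omega
  have hs₁ : t4eShiftA i (i + 1) = 0 := by
    rw [t4eShiftA, if_neg (by omega)]
  have hs₂ : t4eShiftA i i = 0 := by
    rw [t4eShiftA, if_neg (by omega)]
  obtain ⟨h, hN⟩ := hlA.res_norm_split hN'' (w₁ := i + 1) (w₂ := i) le_rfl (Nat.le_succ i)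
    (by omega) (show min i i = min (i + 1) i by omega)
    (fun w hw (h : min w i = min (i + 1) i) => by omega) hs₁ hs₂ (e₁ := 1) (e₂ := q - 1)
    (by simp only [hmin]; exact t4en_mult_alpha_top q i)
    (by simp only [hmin]; exact t4en_mult_alpha_split hq.out hi) y hy hy'
  have h' : Algebra.norm ↥(TaF L (t4eLev N'' q i)) y ∈ lo.V i := by
    have := h
    simp only [hmin] at this
    exact this
  refine ⟨h', ?_⟩
  rw [← lo.t4en_ρ_congr hmin _ h h', hN, pow_one]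

/-! #### The norm formulas along `β` -/

section FinalB

variable (hl : T4eLink lo up)
  (hfib : ∀ W : ValuationSubring ↥(TaF L (t4eLev N'' q (i + 1))), ∀ w' ≤ i,
    W.comap (heckeBetaBar L (t4eLev N'' q i) q).toRingHom = lo.V w' → ∃ w ≤ i + 1, W = up.V w)
  (hdeg : @Module.finrank ↥(TaF L (t4eLev N'' q i)) ↥(TaF L (t4eLev N'' q (i + 1))) _ _
    (t4enAlgB L N'' q i).toModule = q)

include hl hfib hdeg

/-- **`β`, non-split points, orders**: `ord¹_{w-1} (N_β y) = f · ord_w y` for `2 ≤ w ≤ i + 1`, with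
`f = q` if `i + 2 ≤ 2 w` (residue-inseparable step) and `f = 1` otherwise (wild step) -/
theorem t4en_ordB {w : ℕ} (hw2 : 2 ≤ w) (hw : w ≤ i + 1)
    (y : (↥(TaF L (t4eLev N'' q (i + 1))))ˣ) :
    lo.t4en_ord (show w - 1 ≤ i by omega) (Additive.ofMul (Units.map
        (@Algebra.norm ↥(TaF L (t4eLev N'' q i)) ↥(TaF L (t4eLev N'' q (i + 1))) _ _
          (t4enAlgB L N'' q i) : ↥(TaF L (t4eLev N'' q (i + 1))) →* ↥(TaF L (t4eLev N'' q i))) y))
      = ((if i + 1 + 1 ≤ 2 * w then q else 1 : ℕ) : ℤ) * up.t4en_ord hw (Additive.ofMul y) := by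
  letI := t4enAlgB L N'' q i
  have hlB := hl.t4en_linkAtB hfib hdeg
  have huniq : ∀ w₂ ≤ i + 1, (fun w => w - 1) w₂ = (fun w => w - 1) w → w₂ = w := by
    intro w₂ h₂ h
    simp only at h
    omega
  split_ifs with hc
  · exact hlB.ord_norm_unique hw huniq (e := 1) (f := q)
      (t4en_mult_beta_insep q (by omega) hw hc) (one_mul q) y
  · exact hlB.ord_norm_unique hw huniq (e := q) (f := 1)
      (t4en_mult_beta_ram hq.out hw2 hc) (mul_one q) y

/-- **`β`, the split point**: `ord¹_0 (N_β y) = ord_0 y + ord_1 y` -/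
theorem t4en_ordB_split (hi : 1 ≤ i) (y : (↥(TaF L (t4eLev N'' q (i + 1))))ˣ) :
    lo.t4en_ord (Nat.zero_le i) (Additive.ofMul (Units.map
        (@Algebra.norm ↥(TaF L (t4eLev N'' q i)) ↥(TaF L (t4eLev N'' q (i + 1))) _ _
          (t4enAlgB L N'' q i) : ↥(TaF L (t4eLev N'' q (i + 1))) →* ↥(TaF L (t4eLev N'' q i))) y))
      = up.t4en_ord (Nat.zero_le (i + 1)) (Additive.ofMul y)
        + up.t4en_ord (show 1 ≤ i + 1 by omega) (Additive.ofMul y) := by
  letI := t4enAlgB L N'' q i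
  have hlB := hl.t4en_linkAtB hfib hdeg
  exact hlB.ord_norm_split (w₁ := 0) (w₂ := 1) (Nat.zero_le _) (by omega) (by omega)
    (show 1 - 1 = 0 - 1 by omega) (fun w hw (h : w - 1 = 0 - 1) => by omega)
    (e₁ := 1) (e₂ := q - 1) (t4en_mult_beta_bot q i) (t4en_mult_beta_split hq.out hi)
    (by have := hq.out.two_le; omega) y

/-- **`β`, non-split points, residues**: `(ρ¹_{w-1} (N_β y))(𝔮^{q^s}) = (ρ_w y) ^ q`,
`s = t4eShiftB` -/
theorem t4en_resB [IsAlgClosed k] [CharP k q] (hN'' : (N'' : k) ≠ 0) {w : ℕ} (hw2 : 2 ≤ w)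
    (hw : w ≤ i + 1) (y : ↥(TaF L (t4eLev N'' q (i + 1)))) (hy : y ∈ up.V w) :
    ∃ h : @Algebra.norm ↥(TaF L (t4eLev N'' q i)) ↥(TaF L (t4eLev N'' q (i + 1))) _ _
        (t4enAlgB L N'' q i) y ∈ lo.V (w - 1),
      qExpand k (q ^ t4eShiftB i w) (lo.ρ (w - 1) ⟨_, h⟩) = up.ρ w ⟨y, hy⟩ ^ q := by
  letI := t4enAlgB L N'' q i
  have hlB := hl.t4en_linkAtB hfib hdeg
  have huniq : ∀ w₂ ≤ i + 1, (fun w => w - 1) w₂ = (fun w => w - 1) w → w₂ = w := by
    intro w₂ h₂ h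
    simp only at h
    omega
  have hs : t4eShiftB i w ≤ 1 := by
    rw [t4eShiftB]
    split_ifs <;> omega
  exact hlB.res_norm_frob hN'' hw huniq hs y hy

end FinalB

end Final

end AlphaBeta

end Fermat.Agent.T4
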