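/-
T4E, P5-NORM (helper7): **the `α`-half of the norm package between two linked layers**
(`T4eiNormA lo up`, helper4's contract `Lib/T4E/New/NormSym.lean`), assembled from

* the two order fields `t4eoa_ordA`, `t4eoa_ordA_split` (helper1, `Lib/T4E/Norm/OrdA.lean`);
* the two residue fields `t4en_resA`, `t4en_resA_split` (`Lib/T4E/Norm/Tower.lean`): the residue of a
  norm at the non-split points (residue-inseparable or wildly ramified: `Φ^s (ρ¹_w (N_α y)) = (ρ_w y)^q`)
  and at the split point (`ρ¹_i (N_α y) = ρ_{i+1} y · (ρ_i y)^(q-1)`).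

With helper4's `t4eis_norm` (Atkin–Lehner symmetry) this gives the full `T4eiNorm lo up`.
-/
import Mathlib
import Fermat.Agent.Lib.T4E.Norm.Tower
import Fermat.Agent.Lib.T4E.Norm.OrdA

set_option autoImplicit false
set_option linter.unusedSectionVars false
set_option linter.unusedVariables false

open HahnSeries ModularCurve Fermat.Agent.T1 Fermat.Agent.T2 Fermat.Agent.T3 Fermat.Agent.T4E

noncomputable section

namespace Fermat.Agent.T4

variable {L : Type} [Field L] [Algebra ℚ L] {O : ValuationSubring L} {k : Type*} [Field k]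
  {π : ↥O →+* k} [IsDiscreteValuationRing ↥O] {hπ : Function.Surjective π}
  {N'' q : ℕ} [NeZero N''] [NeZero q] {i : ℕ}
  {lo : T4eLayer O π hπ N'' q i} {up : T4eLayer O π hπ N'' q (i + 1)}

/-- field `resA` of `T4eiNormA`, for any linked layers -/
theorem t4e_normA_resA [hq : Fact q.Prime] [IsAlgClosed k] [CharP k q] (hN'' : (N'' : k) ≠ 0)
    (hl : T4eLink lo up) (hi : 1 ≤ i) :
    ∀ w, w + 1 ≤ i → ∀ (y : ↥(TaF L (t4eLev N'' q (i + 1)))) (hy : y ∈ up.V w),
      ∃ h : t4nNormA L (t4eLev N'' q i) q y ∈ lo.V w,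
        qExpand k (q ^ t4eShiftA i w) (lo.ρ w ⟨_, h⟩) = up.ρ w ⟨y, hy⟩ ^ q :=
  fun w hw y hy => t4en_resA hN'' hl hi hw y hy

/-- field `resA_split` of `T4eiNormA`, for any linked layers -/
theorem t4e_normA_resA_split [hq : Fact q.Prime] [IsAlgClosed k] [CharP k q]
    (hN'' : (N'' : k) ≠ 0) (hl : T4eLink lo up) (hi : 1 ≤ i) :
    ∀ (y : ↥(TaF L (t4eLev N'' q (i + 1)))) (hy : y ∈ up.V (i + 1)) (hy' : y ∈ up.V i),
      ∃ h : t4nNormA L (t4eLev N'' q i) q y ∈ lo.V i,
        lo.ρ i ⟨_, h⟩ = up.ρ (i + 1) ⟨y, hy⟩ * up.ρ i ⟨y, hy'⟩ ^ (q - 1) :=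
  fun y hy hy' => t4en_resA_split hN'' hl hi y hy hy'

/-- **the `α`-half of the norm package, for any linked layers** -/
theorem t4e_normA [hq : Fact q.Prime] [IsAlgClosed k] [CharP k q] (hN'' : (N'' : k) ≠ 0)
    (hl : T4eLink lo up) (hi : 1 ≤ i) : T4eiNormA lo up :=
  t4eoa_normA_of_res hq.out hl hi (t4e_normA_resA hN'' hl hi) (t4e_normA_resA_split hN'' hl hi)

end Fermat.Agent.T4
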