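/-
T4E (helper1), package P5 NORM (adapter for P7/P8): **the norm congruences in VALUATION form**, from
helper4's norm package `T4eiNorm lo up` (`New/InstNorm.lean`; for `α` only its `α`-half `T4eiNormA lo up`,
`New/NormSym.lean`, is used: `hn.toA`) and the link `T4eLink lo up` of two
consecutive layers `lo` (level `i`), `up` (level `i + 1`).  These are the hypotheses `hfrob`, `hsplit`,
`hover` of helper5's `T4eStep.relation` / `T4PresOver.norm_relation` (T4's `t4vn_hfrob_alpha`,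
`t4vn_hsplit_alpha`, `t4vn_hover_alpha` in layer language), for both structures `α`, `β`:

* `t4enc_hover_alpha`, `t4enc_hover_beta` : the restriction of a vertical lies under it;
* **`t4enc_hfrob_alpha`** : `y` a unit of `up.V w`, `w + 1 ≤ i` `⇒` `α (N_α y) ≡ y ^ q` on `up.V w`;
* **`t4enc_hsplit_alpha`** (`i ≥ 1`) : `y ≡ α a` on `up.V (i + 1)`, `y ≡ α a'` on `up.V i`
  `⇒ N_α y ≡ a · a' ^ (q - 1)` on `lo.V i`;
* **`t4enc_hfrob_beta`** (`2 ≤ w ≤ i + 1`), **`t4enc_hsplit_beta`** (`i ≥ 1`; split over `lo.V 0`: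
  `up.V 0`, `up.V 1`).

The norms are `t4nNormA`, `t4nNormB` (`Algebra.norm` for the structures `t2iAlgebra` resp.
`heckeBetaBar.toAlgebra`, by `rfl`: `t4enc_normA_eq`, `t4enc_normB_eq`).
-/
import Fermat.Agent.Lib.T4E.New.NormSym
import Fermat.Agent.Lib.T4.Inst.ValOver

set_option autoImplicit false
set_option linter.unusedSectionVars false
set_option linter.unusedVariables false
set_option linter.style.haveILetI false

open HahnSeries ModularCurve Fermat.Agent.T1 Fermat.Agent.T2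

noncomputable section

namespace Fermat.Agent.T4

section Cong

variable {L : Type} [Field L] [Algebra ℚ L] {O : ValuationSubring L} {k : Type*} [Field k]
  {π : ↥O →+* k} [IsDiscreteValuationRing ↥O] {hπ : Function.Surjective π}
  {N'' q : ℕ} [NeZero N''] [NeZero q] {i : ℕ}

/-- `α : F_i → F_{i+1}` with its codomain written as the level `i + 1` of the tower (`rfl`) -/
abbrev t4encAl (L : Type) [Field L] [Algebra ℚ L] (N'' q : ℕ) [NeZero N''] [NeZero q] (i : ℕ) :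
    ↥(TaF L (t4eLev N'' q i)) →ₐ[L] ↥(TaF L (t4eLev N'' q (i + 1))) :=
  heckeAlphaBar L (t4eLev N'' q i) q

/-- `β : F_i → F_{i+1}` with its codomain written as the level `i + 1` of the tower (`rfl`) -/
abbrev t4encBe (L : Type) [Field L] [Algebra ℚ L] (N'' q : ℕ) [NeZero N''] [NeZero q] (i : ℕ) :
    ↥(TaF L (t4eLev N'' q i)) →ₐ[L] ↥(TaF L (t4eLev N'' q (i + 1))) :=
  heckeBetaBar L (t4eLev N'' q i) q

/-- `t4nNormA` is the norm for the structure `t2iAlgebra` -/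
theorem t4enc_normA_eq (N1 : ℕ) [NeZero N1] (y : ↥(TaF L (N1 * q))) :
    t4nNormA L N1 q y = @Algebra.norm ↥(TaF L N1) ↥(TaF L (N1 * q)) _ _ (t2iAlgebra L N1 q) y := rfl

/-- `t4nNormB` is the norm for the structure `β` -/
theorem t4enc_normB_eq (N1 : ℕ) [NeZero N1] (y : ↥(TaF L (N1 * q))) :
    t4nNormB L N1 q y = @Algebra.norm ↥(TaF L N1) ↥(TaF L (N1 * q)) _ _
      (heckeBetaBar L N1 q).toRingHom.toAlgebra y := rfl

/-- the reductions only depend on the value of the label -/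
theorem T4eLayer.t4enc_ρ_congr {j : ℕ} (Y : T4eLayer O π hπ N'' q j) {a b : ℕ} (e : a = b)
    (x : ↥(TaF L (t4eLev N'' q j))) (hx : x ∈ Y.V a) (hx' : x ∈ Y.V b) :
    Y.ρ a ⟨x, hx⟩ = Y.ρ b ⟨x, hx'⟩ := by
  subst e
  rfl

/-- an element of `V w` of valuation `1` -/
theorem t4enc_mem_of_val_one {F : Type*} [Field F] {V : ValuationSubring F} {y : F}
    (hy : V.valuation y = 1) : y ∈ V := by
  rw [← ValuationSubring.valuation_le_one_iff, hy]

variable {lo : T4eLayer O π hπ N'' q i} {up : T4eLayer O π hπ N'' q (i + 1)}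

/-! ### `hover` -/

/-- the restriction of `up.V w` along `α` lies under it -/
theorem t4enc_hover_alpha (hl : T4eLink lo up) {w : ℕ} (hw : w ≤ i + 1)
    (x : ↥(TaF L (t4eLev N'' q i))) (hx : (lo.V (min w i)).valuation x < 1) :
    (up.V w).valuation (heckeAlphaBar L (t4eLev N'' q i) q x) < 1 :=
  (t4vr_valuation_lt_one_iff_of_comap (heckeAlphaBar L (t4eLev N'' q i) q).toRingHom
    (hl.comap_α w hw) x).mp hx

/-- the restriction of `up.V w` along `β` lies under it -/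
theorem t4enc_hover_beta (hl : T4eLink lo up) {w : ℕ} (hw : w ≤ i + 1)
    (x : ↥(TaF L (t4eLev N'' q i))) (hx : (lo.V (w - 1)).valuation x < 1) :
    (up.V w).valuation (heckeBetaBar L (t4eLev N'' q i) q x) < 1 :=
  (t4vr_valuation_lt_one_iff_of_comap (heckeBetaBar L (t4eLev N'' q i) q).toRingHom
    (hl.comap_β w hw) x).mp hx

/-- membership along `α` -/
theorem t4enc_alpha_mem (hl : T4eLink lo up) {w : ℕ} (hw : w ≤ i + 1)
    (x : ↥(TaF L (t4eLev N'' q i))) :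
    heckeAlphaBar L (t4eLev N'' q i) q x ∈ up.V w ↔ x ∈ lo.V (min w i) := by
  rw [← hl.comap_α w hw, ValuationSubring.mem_comap]
  exact Iff.rfl

/-- membership along `β` -/
theorem t4enc_beta_mem (hl : T4eLink lo up) {w : ℕ} (hw : w ≤ i + 1)
    (x : ↥(TaF L (t4eLev N'' q i))) :
    heckeBetaBar L (t4eLev N'' q i) q x ∈ up.V w ↔ x ∈ lo.V (w - 1) := by
  rw [← hl.comap_β w hw, ValuationSubring.mem_comap]
  exact Iff.rfl

/-! ### `hfrob` -/

/-- **`α (N_α y) ≡ y ^ q` on the non-split verticals** -/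
theorem t4enc_hfrob_alpha (hn : T4eiNormA lo up) (hl : T4eLink lo up) {w : ℕ} (hw : w + 1 ≤ i)
    (y : ↥(TaF L (t4eLev N'' q (i + 1)))) (hy : (up.V w).valuation y = 1) :
    (up.V w).valuation
      (t4encAl L N'' q i (t4nNormA L (t4eLev N'' q i) q y) - y ^ q) < 1 := by
  have hw' : w ≤ i + 1 := by omega
  have e : min w i = w := by omega
  have hyV : y ∈ up.V w := t4enc_mem_of_val_one hy
  obtain ⟨h, hres⟩ := hn.resA w hw y hyV
  have hx : t4nNormA L (t4eLev N'' q i) q y ∈ lo.V (min w i) := by rw [e]; exact h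
  have hx' : heckeAlphaBar L (t4eLev N'' q i) q (t4nNormA L (t4eLev N'' q i) q y) ∈ up.V w :=
    (t4enc_alpha_mem hl hw' _).mpr hx
  have h1 := hl.ρ_α w hw' _ hx hx'
  rw [lo.t4enc_ρ_congr e _ hx h, hres] at h1
  have h2 : up.ρ w (⟨_, hx'⟩ - ⟨y, hyV⟩ ^ q) = 0 := by
    rw [map_sub, map_pow, h1, sub_self]
  exact (up.ρ_eq_zero w hw' _).mp h2

/-- **`β (N_β y) ≡ y ^ q` on the non-split verticals** -/
theorem t4enc_hfrob_beta (hn : T4eiNorm lo up) (hl : T4eLink lo up) {w : ℕ} (hw2 : 2 ≤ w)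
    (hw : w ≤ i + 1) (y : ↥(TaF L (t4eLev N'' q (i + 1)))) (hy : (up.V w).valuation y = 1) :
    (up.V w).valuation
      (t4encBe L N'' q i (t4nNormB L (t4eLev N'' q i) q y) - y ^ q) < 1 := by
  have hyV : y ∈ up.V w := t4enc_mem_of_val_one hy
  obtain ⟨h, hres⟩ := hn.resB w hw2 hw y hyV
  have hx' : heckeBetaBar L (t4eLev N'' q i) q (t4nNormB L (t4eLev N'' q i) q y) ∈ up.V w :=
    (t4enc_beta_mem hl hw _).mpr h
  have h1 := hl.ρ_β w hw _ h hx'
  rw [hres] at h1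
  have h2 : up.ρ w (⟨_, hx'⟩ - ⟨y, hyV⟩ ^ q) = 0 := by
    rw [map_sub, map_pow, h1, sub_self]
  exact (up.ρ_eq_zero w hw _).mp h2

/-! ### `hsplit` -/

theorem t4enc_shiftA_top (i : ℕ) : t4eShiftA i (i + 1) = 0 := by
  unfold t4eShiftA
  rw [if_neg (by omega)]

theorem t4enc_shiftA_self {i : ℕ} (hi : 1 ≤ i) : t4eShiftA i i = 0 := by
  unfold t4eShiftA
  rw [if_neg (by omega)]

theorem t4enc_shiftB_zero (i : ℕ) : t4eShiftB i 0 = 0 := by
  unfold t4eShiftB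
  rw [if_neg (by omega)]

theorem t4enc_shiftB_one {i : ℕ} (hi : 1 ≤ i) : t4eShiftB i 1 = 0 := by
  unfold t4eShiftB
  rw [if_neg (by omega)]

/-- `Φ^0 = id` -/
theorem t4enc_qExpand_pow_zero {s : ℕ} (hs : s = 0) (x : LaurentSeries k) :
    qExpand k (q ^ s) x = x := by
  subst hs
  rw [qExpand_congr (pow_zero q) x, qExpand_one_apply]

/-- a congruence `y ≡ x'` on `V` in terms of the reduction -/
theorem T4eLayer.t4enc_ρ_eq_of_val {j : ℕ} (Y : T4eLayer O π hπ N'' q j) {w : ℕ} (hw : w ≤ j)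
    {y x' : ↥(TaF L (t4eLev N'' q j))} (hy : y ∈ Y.V w) (hx' : x' ∈ Y.V w)
    (h : (Y.V w).valuation (y - x') < 1) : Y.ρ w ⟨y, hy⟩ = Y.ρ w ⟨x', hx'⟩ := by
  have h1 : Y.ρ w (⟨y, hy⟩ - ⟨x', hx'⟩) = 0 := (Y.ρ_eq_zero w hw _).mpr h
  rw [map_sub] at h1
  exact sub_eq_zero.mp h1

/-- **the norm congruence at the split point of `α`**: `N_α y ≡ a · a' ^ (q - 1)` on `lo.V i` -/
theorem t4enc_hsplit_alpha (hn : T4eiNormA lo up) (hl : T4eLink lo up) (hi : 1 ≤ i)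
    (y : ↥(TaF L (t4eLev N'' q (i + 1)))) (a a' : ↥(TaF L (t4eLev N'' q i)))
    (ha : a ∈ lo.V i) (ha' : a' ∈ lo.V i)
    (hy : (up.V (i + 1)).valuation y = 1) (hy' : (up.V i).valuation y = 1)
    (hya : (up.V (i + 1)).valuation (y - t4encAl L N'' q i a) < 1)
    (hya' : (up.V i).valuation (y - t4encAl L N'' q i a') < 1) :
    (lo.V i).valuation (t4nNormA L (t4eLev N'' q i) q y - a * a' ^ (q - 1)) < 1 := by
  have hyV : y ∈ up.V (i + 1) := t4enc_mem_of_val_one hy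
  have hyV' : y ∈ up.V i := t4enc_mem_of_val_one hy'
  obtain ⟨h, hres⟩ := hn.resA_split y hyV hyV'
  -- the two residues of `y`
  have e1 : min (i + 1) i = i := by omega
  have e2 : min i i = i := by omega
  have ha1 : a ∈ lo.V (min (i + 1) i) := by rw [e1]; exact ha
  have ha2 : a' ∈ lo.V (min i i) := by rw [e2]; exact ha'
  have hαa : heckeAlphaBar L (t4eLev N'' q i) q a ∈ up.V (i + 1) :=
    (t4enc_alpha_mem hl le_rfl _).mpr ha1
  have hαa' : heckeAlphaBar L (t4eLev N'' q i) q a' ∈ up.V i :=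
    (t4enc_alpha_mem hl (by omega) _).mpr ha2
  have r1 : up.ρ (i + 1) ⟨y, hyV⟩ = lo.ρ i ⟨a, ha⟩ := by
    rw [up.t4enc_ρ_eq_of_val le_rfl hyV hαa hya, hl.ρ_α (i + 1) le_rfl a ha1 hαa,
      t4enc_qExpand_pow_zero (t4enc_shiftA_top i), lo.t4enc_ρ_congr e1 a ha1 ha]
  have r2 : up.ρ i ⟨y, hyV'⟩ = lo.ρ i ⟨a', ha'⟩ := by
    rw [up.t4enc_ρ_eq_of_val (by omega) hyV' hαa' hya', hl.ρ_α i (by omega) a' ha2 hαa',
      t4enc_qExpand_pow_zero (t4enc_shiftA_self hi), lo.t4enc_ρ_congr e2 a' ha2 ha']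
  have h2 : lo.ρ i (⟨_, h⟩ - ⟨a, ha⟩ * ⟨a', ha'⟩ ^ (q - 1)) = 0 := by
    rw [map_sub, map_mul, map_pow, hres, r1, r2, sub_self]
  exact (lo.ρ_eq_zero i le_rfl _).mp h2

/-- **the norm congruence at the split point of `β`**: `N_β y ≡ b · b' ^ (q - 1)` on `lo.V 0` -/
theorem t4enc_hsplit_beta (hn : T4eiNorm lo up) (hl : T4eLink lo up) (hi : 1 ≤ i)
    (y : ↥(TaF L (t4eLev N'' q (i + 1)))) (b b' : ↥(TaF L (t4eLev N'' q i)))
    (hb : b ∈ lo.V 0) (hb' : b' ∈ lo.V 0)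
    (hy : (up.V 0).valuation y = 1) (hy' : (up.V 1).valuation y = 1)
    (hyb : (up.V 0).valuation (y - t4encBe L N'' q i b) < 1)
    (hyb' : (up.V 1).valuation (y - t4encBe L N'' q i b') < 1) :
    (lo.V 0).valuation (t4nNormB L (t4eLev N'' q i) q y - b * b' ^ (q - 1)) < 1 := by
  have hyV : y ∈ up.V 0 := t4enc_mem_of_val_one hy
  have hyV' : y ∈ up.V 1 := t4enc_mem_of_val_one hy'
  obtain ⟨h, hres⟩ := hn.resB_split y hyV hyV'
  have e1 : 0 - 1 = 0 := rfl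
  have e2 : 1 - 1 = 0 := rfl
  have hβb : heckeBetaBar L (t4eLev N'' q i) q b ∈ up.V 0 :=
    (t4enc_beta_mem hl (Nat.zero_le _) _).mpr hb
  have hβb' : heckeBetaBar L (t4eLev N'' q i) q b' ∈ up.V 1 :=
    (t4enc_beta_mem hl (by omega) _).mpr hb'
  have r1 : up.ρ 0 ⟨y, hyV⟩ = lo.ρ 0 ⟨b, hb⟩ := by
    rw [up.t4enc_ρ_eq_of_val (Nat.zero_le _) hyV hβb hyb, hl.ρ_β 0 (Nat.zero_le _) b hb hβb,
      t4enc_qExpand_pow_zero (t4enc_shiftB_zero i)]
  have r2 : up.ρ 1 ⟨y, hyV'⟩ = lo.ρ 0 ⟨b', hb'⟩ := by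
    rw [up.t4enc_ρ_eq_of_val (by omega) hyV' hβb' hyb', hl.ρ_β 1 (by omega) b' hb' hβb',
      t4enc_qExpand_pow_zero (t4enc_shiftB_one hi)]
  have h2 : lo.ρ 0 (⟨_, h⟩ - ⟨b, hb⟩ * ⟨b', hb'⟩ ^ (q - 1)) = 0 := by
    rw [map_sub, map_mul, map_pow, hres, r1, r2, sub_self]
  exact (lo.ρ_eq_zero 0 (Nat.zero_le _) _).mp h2

end Cong

end Fermat.Agent.T4
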